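import Fermat.Agent.DeligneSerre.Hecke.Defs

/-!
# The Hecke algebra of integral parabolic homomorphisms of `Γ₁(N)`
-/

set_option autoImplicit false

noncomputable section

open CongruenceSubgroup
open scoped MatrixGroups

namespace FLTA.DeligneSerre

/-- The operators `T_p` (`p ∤ N` prime) and `⟨d⟩` on integral parabolic homomorphisms. -/
def hecke1Alg (N : ℕ) [NeZero N] : Subalgebra ℤ (Module.End ℤ (parHom1 N ℤ ℤ)) :=
  Algebra.adjoin ℤ
    ({T | ∃ p : ℕ, p.Prime ∧ ¬ p ∣ N ∧ T = heckePar1 ℤ p} ∪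
      {T | ∃ u : (ZMod N)ˣ, T = diamondPar1 ℤ u})

theorem heckePar1_mem {N : ℕ} [NeZero N] {p : ℕ} (hp : p.Prime) (hpN : ¬ p ∣ N) :
    heckePar1 ℤ p ∈ hecke1Alg N :=
  Algebra.subset_adjoin (Or.inl ⟨p, hp, hpN, rfl⟩)

theorem diamondPar1_mem {N : ℕ} [NeZero N] (u : (ZMod N)ˣ) :
    diamondPar1 ℤ u ∈ hecke1Alg N :=
  Algebra.subset_adjoin (Or.inr ⟨u, rfl⟩)

end FLTA.DeligneSerre
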