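import Fermat.Agent.DeligneSerre.Eigen.Stab
import Mathlib.NumberTheory.LSeries.PrimesInAP

/-!
# The nebentypus of a weight one eigenform

If the coefficients satisfy the Hecke relations with `ε`, then `f ∣ g = ε(d) f` for `g ∈ Γ₀(N)`
with lower right entry `d`.
-/

set_option autoImplicit false

noncomputable section

open UpperHalfPlane hiding I
open CongruenceSubgroup Matrix.SpecialLinearGroup ModularFormClass
open scoped MatrixGroups ModularForm Manifold OnePoint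

namespace FLTA.DeligneSerre

open P2MW.S_ModularForm_heckeT_slash_eq_self_of_mem_Gamma0.ModularForm.HeckeSlashInvariance
  (heckeRep redMatrix heckeU_eq_sum_zmod)

variable {N : ℕ} [NeZero N]

theorem smul_slash_of_det_pos (k : ℤ) {g : GL (Fin 2) ℝ} (hg : 0 < (g.det : ℝ)) (c : ℂ)
    (h : ℍ → ℂ) : (c • h) ∣[k] g = c • (h ∣[k] g) := by
  rw [ModularForm.smul_slash, UpperHalfPlane.σ, if_pos hg]
  rfl

theorem smul_slash_SL (k : ℤ) (g : SL(2, ℤ)) (c : ℂ) (h : ℍ → ℂ) :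
    (c • h) ∣[k] g = c • (h ∣[k] g) := by
  rw [ModularForm.SL_slash, smul_slash_of_det_pos k (by simp) c h]
  rfl

/-- Two elements of `Γ₀(N)` with the same lower right entry act in the same way. -/
theorem slash_congr_lowerRight {k : ℤ} (f : CuspForm (Gamma1 N) k) {g h : Gamma0 N}
    (hgh : lowerRight N g = lowerRight N h) :
    ⇑f ∣[k] (g : SL(2, ℤ)) = ⇑f ∣[k] (h : SL(2, ℤ)) := by
  have hm : ((g * h⁻¹ : Gamma0 N) : SL(2, ℤ)) ∈ Gamma1 N :=
    mem_gamma1_iff.2 ⟨(g * h⁻¹).2, by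
      show lowerRight N (g * h⁻¹) = 1
      rw [map_mul, map_inv, hgh, mul_inv_cancel]⟩
  conv_lhs => rw [show (g : SL(2, ℤ)) = ((g * h⁻¹ : Gamma0 N) : SL(2, ℤ)) * h by simp]
  rw [SlashAction.slash_mul, slash_eq_of_mem_gamma1 f hm]

theorem slash_gamma0_slash_gamma1 {k : ℤ} (f : CuspForm (Gamma1 N) k) (g : Gamma0 N)
    {γ : SL(2, ℤ)} (hγ : γ ∈ Gamma1 N) :
    (⇑f ∣[k] (g : SL(2, ℤ))) ∣[k] γ = ⇑f ∣[k] (g : SL(2, ℤ)) := by
  obtain ⟨h0, h1⟩ := mem_gamma1_iff.1 hγ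
  rw [← SlashAction.slash_mul]
  have e := slash_congr_lowerRight f (g := g * ⟨γ, h0⟩) (h := g) (by rw [map_mul, h1, mul_one])
  rw [Subgroup.coe_mul] at e
  exact e

variable {p : ℕ}

/-- The sum over the representatives of `Γ₁(N) diag(1, p) Γ₁(N)`. -/
def heckeFn1 (k : ℤ) [Fact p.Prime] (hpN : ¬ p ∣ N) (h : ℍ → ℂ) : ℍ → ℂ :=
  haveI : NeZero p := ⟨(Fact.out : p.Prime).ne_zero⟩
  ∑ x : OnePoint (ZMod p), h ∣[k] heckeRep1 hpN x

theorem heckeFn1_eq (k : ℤ) [hp : Fact p.Prime] (hpN : ¬ p ∣ N) (h : ℍ → ℂ) :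
    heckeFn1 k hpN h = ModularForm.heckeU k p h +
      (h ∣[k] (diamondRep (primeUnit hp.out hpN) : SL(2, ℤ))) ∣[k] ModularForm.heckeDiagMatrix p := by
  haveI : NeZero p := ⟨hp.out.ne_zero⟩
  rw [heckeFn1, heckeU_eq_sum_zmod, add_comm]
  refine (Fintype.sum_option fun x : OnePoint (ZMod p) => h ∣[k] heckeRep1 hpN x).trans ?_
  congr 1
  · show h ∣[k] heckeRep1 hpN (∞ : OnePoint (ZMod p)) = _
    rw [heckeRep1_infty, SlashAction.slash_mul, ModularForm.SL_slash]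
    rfl
  · exact Finset.sum_congr rfl fun x _ => congrArg (h ∣[k] ·) (heckeRep1_coe hpN x)

theorem heckeFn1_slash (k : ℤ) [hp : Fact p.Prime] (hpN : ¬ p ∣ N) {h : ℍ → ℂ}
    (hh : ∀ γ ∈ Gamma1 N, h ∣[k] (γ : SL(2, ℤ)) = h) {γ : SL(2, ℤ)} (hγ : γ ∈ Gamma1 N) :
    heckeFn1 k hpN h ∣[k] γ = heckeFn1 k hpN h := by
  haveI : NeZero p := ⟨hp.out.ne_zero⟩
  obtain ⟨h0, hd⟩ := mem_gamma1_iff.1 hγ
  rw [ModularForm.SL_slash, heckeFn1, SlashAction.sum_slash]
  calc _ = ∑ x : OnePoint (ZMod p), h ∣[k] heckeRep1 hpN (redMatrix p γ • x) := by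
        refine Finset.sum_congr rfl fun x _ => ?_
        obtain ⟨δ, hδ, hmul⟩ := heckeRep1_mul hpN ⟨γ, h0⟩ x
        rw [← SlashAction.slash_mul]
        erw [hmul]
        rw [SlashAction.slash_mul]
        congr 1
        exact hh _ (mem_gamma1_iff.2 ⟨δ.2, hδ.trans hd⟩)
    _ = _ := Equiv.sum_comp (MulAction.toPerm (redMatrix p γ)) fun x => h ∣[k] heckeRep1 hpN x

variable {ε : DirichletCharacter ℂ N} {f : CuspForm (Gamma1 N) 1}

theorem IsEigenOne.heckeU_add (hf : IsEigenOne N ε f) (hp : p.Prime) (hpN : ¬ p ∣ N) :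
    ModularForm.heckeU 1 p ⇑f + ε (p : ZMod N) • (⇑f ∣[(1 : ℤ)] ModularForm.heckeDiagMatrix p) =
      qCoeff f p • ⇑f := by
  have hn := cusp_mem_nice f
  have h1 := heckeU_mem_nice hn 1 p
  have h2 := diag_mem_nice hn 1 p
  refine nice_ext (add_mem h1 (Submodule.smul_mem _ _ h2)) (Submodule.smul_mem _ _ hn) fun n => ?_
  rw [qCoeff_add_nice h1 (Submodule.smul_mem _ _ h2), qCoeff_smul_nice h2, qCoeff_smul_nice hn,
    qCoeff_heckeU_nice hn 1 hp.ne_zero, qCoeff_diag_nice hn 1 hp.ne_zero, mul_comm n p,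
    ← hf.2 p hp hpN n]
  simp

theorem IsEigenOne.slash_primeUnit (hf : IsEigenOne N ε f) (hp : p.Prime) (hpN : ¬ p ∣ N) :
    ⇑f ∣[(1 : ℤ)] (diamondRep (primeUnit hp hpN) : SL(2, ℤ)) = ε (p : ZMod N) • ⇑f := by
  haveI := Fact.mk hp
  set G := diamondRep (primeUnit hp hpN)
  set c := ε (p : ZMod N)
  set h := ⇑f ∣[(1 : ℤ)] (G : SL(2, ℤ)) - c • ⇑f with hh
  have hmd : MDiff h := (((CuspFormClass.holo f).slash 1 _)).sub ((CuspFormClass.holo f).const_smul c)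
  have hzero : IsZeroAtImInfty h := by
    have h2 : IsZeroAtImInfty (c • ⇑f) := by
      have := cusp_slash_isZero f 1
      rw [SlashAction.slash_one] at this
      exact Filter.ZeroAtFilter.smul c this
    have h3 := (cusp_slash_isZero f G).add h2.neg
    simp only [h, sub_eq_add_neg]
    exact h3
  suffices h = 0 from sub_eq_zero.mp this
  refine eq_zero_of_stab hp hpN 1 hmd hzero (fun γ hγ => ?_) fun γ hγ => ?_
  · rw [hh, sub_eq_add_neg, SlashAction.add_slash, SlashAction.neg_slash, smul_slash_SL,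
      slash_gamma0_slash_gamma1 f G hγ, slash_eq_of_mem_gamma1 f hγ]
  · have e : h ∣[(1 : ℤ)] ModularForm.heckeDiagMatrix p = heckeFn1 1 hpN ⇑f - qCoeff f p • ⇑f := by
      rw [hh, sub_eq_add_neg, SlashAction.add_slash, SlashAction.neg_slash,
        smul_slash_of_det_pos 1 (ModularForm.det_heckeDiagMatrix_pos p), heckeFn1_eq,
        ← hf.heckeU_add hp hpN]
      abel
    rw [e, sub_eq_add_neg, SlashAction.add_slash, SlashAction.neg_slash, smul_slash_SL,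
      slash_eq_of_mem_gamma1 f hγ,
      heckeFn1_slash 1 hpN (fun γ hγ => slash_eq_of_mem_gamma1 f hγ) hγ]

/-- `f` has nebentypus `ε`. -/
theorem IsEigenOne.slash_eq (hf : IsEigenOne N ε f) (g : Gamma0 N) :
    ⇑f ∣[(1 : ℤ)] (g : SL(2, ℤ)) = ε (lowerRight N g : ZMod N) • ⇑f := by
  obtain ⟨p, hpgt, hp, hpd⟩ :=
    Nat.forall_exists_prime_gt_and_eq_mod (lowerRight N g).isUnit N
  have hpN : ¬ p ∣ N := fun h =>
    absurd (Nat.le_of_dvd (Nat.pos_of_ne_zero (NeZero.ne N)) h) (by omega)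
  rw [slash_congr_lowerRight f (h := diamondRep (primeUnit hp hpN))
    (by rw [lowerRight_diamondRep]; exact Units.ext hpd.symm), ← hpd]
  exact hf.slash_primeUnit hp hpN

end FLTA.DeligneSerre
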