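import Fermat.Agent.DeligneSerre.Hecke.Defs
import Fermat.Agent.DeligneSerre.Eigen.Diamond
import Fermat.Agent.DeligneSerre.Eigen.Char0
import Fermat.Agent.Periods.HeckePeriods
import Fermat.Agent.Periods.Lattice

/-!
# The Hecke algebra of integral parabolic homomorphisms acts on weight two cusp forms

The periods give an injective equivariant map `S₂(Γ₁(M)) → Hom_par(Γ₁(M), ℂ)`, and the latter is
spanned by integral homomorphisms.
-/

set_option autoImplicit false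

noncomputable section

open UpperHalfPlane hiding I
open CongruenceSubgroup ModularCurve.Period Filter Topology Matrix.SpecialLinearGroup
open scoped MatrixGroups ModularForm Manifold OnePoint

namespace FLTA.DeligneSerre

open FLTA.Periods (IsPrimitive)

variable {M : ℕ} [NeZero M]

/-! ### Primitives and periods -/

omit [NeZero M] in
theorem conj_T_zpow_mem_gamma1 (δ : SL(2, ℤ)) :
    δ * ModularGroup.T ^ (M : ℤ) * δ⁻¹ ∈ Gamma1 M := by
  have hT : ModularGroup.T ^ (M : ℤ) ∈ CongruenceSubgroup.Gamma M := by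
    rw [Gamma_mem, ModularGroup.coe_T_zpow]
    simp
  obtain ⟨h00, h01, h10, h11⟩ := Gamma_mem.mp ((Gamma_normal M).conj_mem _ hT δ)
  exact (Gamma1_mem M _).mpr ⟨h00, h11, h10⟩

theorem periodic_slash_gamma1 (h : CuspForm (Gamma1 M) 2) (δ : SL(2, ℤ)) :
    Function.Periodic ((⇑h ∣[(2 : ℤ)] δ) ∘ ofComplex) ((M : ℝ) : ℂ) := by
  have hinv : (⇑h ∣[(2 : ℤ)] δ) ∣[(2 : ℤ)] (ModularGroup.T ^ (M : ℤ)) = ⇑h ∣[(2 : ℤ)] δ := by
    rw [← SlashAction.slash_mul,
      show δ * ModularGroup.T ^ (M : ℤ) = δ * ModularGroup.T ^ (M : ℤ) * δ⁻¹ * δ by group,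
      SlashAction.slash_mul, slash_eq_of_mem_gamma1 h (conj_T_zpow_mem_gamma1 δ)]
  intro z
  by_cases hz : 0 < z.im
  · have hz' : 0 < (z + ((M : ℝ) : ℂ)).im := by simpa using hz
    have hv : ofComplex (z + ((M : ℝ) : ℂ)) = ((M : ℤ) : ℝ) +ᵥ ofComplex z := by
      apply UpperHalfPlane.ext
      rw [coe_vadd, ofComplex_apply_of_im_pos hz, ofComplex_apply_of_im_pos hz']
      simp [add_comm]
    have hh := congrFun hinv (ofComplex z)
    rw [ModularForm.SL_slash_apply, modular_T_zpow_smul] at hh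
    rw [Function.comp_apply, Function.comp_apply, hv]
    have hd : denom (ModularGroup.T ^ (M : ℤ) : SL(2, ℤ)) (ofComplex z) = 1 := by
      rw [ModularGroup.denom_apply]
      simp [ModularGroup.coe_T_zpow, -zpow_natCast]
    rwa [hd, one_zpow, mul_one] at hh
  · have h1 : z.im ≤ 0 := le_of_not_gt hz
    have h2 : (z + ((M : ℝ) : ℂ)).im ≤ 0 := by simpa using h1
    rw [Function.comp_apply, Function.comp_apply, ofComplex_apply_of_im_nonpos h1,
      ofComplex_apply_of_im_nonpos h2]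

theorem exists_primitive_slash1 (h : CuspForm (Gamma1 M) 2) (δ : SL(2, ℤ)) :
    ∃ F : ℍ → ℂ, IsPrimitive (⇑h ∣[(2 : ℤ)] δ) F ∧ ∃ L, Tendsto F atImInfty (𝓝 L) :=
  Periods.exists_primitive_of_periodic (h := (M : ℝ))
    (by exact_mod_cast Nat.pos_of_ne_zero (NeZero.ne M)) (periodic_slash_gamma1 h δ)
    ((CuspFormClass.holo h).slash 2 _) (cusp_slash_isZero h δ)

theorem exists_prim1 (h : CuspForm (Gamma1 M) 2) : ∃ F : ℍ → ℂ, IsPrimitive (⇑h) F := by
  obtain ⟨F, hF, -⟩ := exists_primitive_slash1 h 1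
  exact ⟨F, by rwa [SlashAction.slash_one] at hF⟩

/-- A primitive. -/
def prim1 (h : CuspForm (Gamma1 M) 2) : ℍ → ℂ := (exists_prim1 h).choose

theorem isPrimitive_prim1 (h : CuspForm (Gamma1 M) 2) : IsPrimitive (⇑h) (prim1 h) :=
  (exists_prim1 h).choose_spec

theorem equivariant_prim1 (h : CuspForm (Gamma1 M) 2) :
    IsEquivariantPrimitive (Gamma1 M) (prim1 h) := fun γ => by
  have h2 := (isPrimitive_prim1 h).comp_smul (γ : SL(2, ℤ))
  rw [slash_eq_of_mem_gamma1 h γ.2] at h2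
  exact h2.exists_sub_eq (isPrimitive_prim1 h)

theorem exists_tendsto_prim1 (h : CuspForm (Gamma1 M) 2) (δ : SL(2, ℤ)) :
    ∃ L, Tendsto (fun w : ℍ => prim1 h (δ • w)) atImInfty (𝓝 L) := by
  obtain ⟨G, hG, L, hL⟩ := exists_primitive_slash1 h δ
  obtain ⟨c, hc⟩ := ((isPrimitive_prim1 h).comp_smul δ).exists_sub_eq hG
  refine ⟨c + L, (hL.const_add c).congr fun w => ?_⟩
  linear_combination -(hc w)

/-- The periods. -/
def periodHom1 (h : CuspForm (Gamma1 M) 2) : Additive (Gamma1 M) →+ ℂ :=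
  (equivariant_prim1 h).periodHom

theorem periodHom1_eq {h : CuspForm (Gamma1 M) 2} {F : ℍ → ℂ} (hF : IsPrimitive (⇑h) F)
    (γ : Gamma1 M) (z : ℍ) :
    periodHom1 h (Additive.ofMul γ) = F ((γ : SL(2, ℤ)) • z) - F z := by
  obtain ⟨c, hc⟩ := (isPrimitive_prim1 h).exists_sub_eq hF
  rw [periodHom1, IsEquivariantPrimitive.periodHom_apply,
    ← (equivariant_prim1 h).sub_eq_period γ z]
  linear_combination hc ((γ : SL(2, ℤ)) • z) - hc z

theorem periodHom1_isParabolicHom (h : CuspForm (Gamma1 M) 2) :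
    IsParabolicHom (Gamma1 M) (periodHom1 h) := by
  intro γ hγ
  obtain ⟨δ, hδ⟩ := Periods.exists_conj_upper_triangular (γ : SL(2, ℤ)) hγ
  obtain ⟨L, hL⟩ := exists_tendsto_prim1 h δ
  have h1 := (hL.comp (Periods.tendsto_smul_atImInfty hδ)).sub hL
  rw [sub_self] at h1
  refine (tendsto_nhds_unique (h1.congr fun w => ?_) tendsto_const_nhds).symm
  rw [periodHom1_eq (isPrimitive_prim1 h) γ (δ • w)]
  simp only [Function.comp_apply, mul_smul, smul_inv_smul]

variable (M) in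
/-- The periods as a linear map to parabolic homomorphisms. -/
def periods1 : CuspForm (Gamma1 M) 2 →ₗ[ℂ] parHom1 M ℂ ℂ where
  toFun h := ⟨periodHom1 h, periodHom1_isParabolicHom h⟩
  map_add' f g := by
    refine Subtype.ext (AddMonoidHom.ext fun x => ?_)
    obtain ⟨γ, rfl⟩ := Additive.ofMul.surjective x
    have hadd : IsPrimitive (⇑(f + g)) (prim1 f + prim1 g) := by
      intro τ
      simpa using (isPrimitive_prim1 f).add (isPrimitive_prim1 g) τ
    show periodHom1 (f + g) _ = periodHom1 f _ + periodHom1 g _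
    rw [periodHom1_eq hadd γ UpperHalfPlane.I, periodHom1_eq (isPrimitive_prim1 f) γ UpperHalfPlane.I,
      periodHom1_eq (isPrimitive_prim1 g) γ UpperHalfPlane.I]
    simp only [Pi.add_apply]
    ring
  map_smul' a f := by
    refine Subtype.ext (AddMonoidHom.ext fun x => ?_)
    obtain ⟨γ, rfl⟩ := Additive.ofMul.surjective x
    have hsmul : IsPrimitive (⇑(a • f)) (a • prim1 f) := by
      intro τ
      simpa using (isPrimitive_prim1 f).const_smul a τ
    show periodHom1 (a • f) _ = a • periodHom1 f _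
    rw [periodHom1_eq hsmul γ UpperHalfPlane.I, periodHom1_eq (isPrimitive_prim1 f) γ UpperHalfPlane.I]
    simp only [Pi.smul_apply, smul_eq_mul]
    ring

theorem coe_periods1 (h : CuspForm (Gamma1 M) 2) :
    ((periods1 M h : parHom1 M ℂ ℂ) : Additive (Gamma1 M) →+ ℂ) = periodHom1 h := rfl

theorem periods1_injective : Function.Injective (periods1 M) := by
  refine (injective_iff_map_eq_zero _).mpr fun h hh => ?_
  have hinv : ∀ γ ∈ Gamma1 M, ∀ z : ℍ, prim1 h ((γ : SL(2, ℤ)) • z) = prim1 h z := fun γ hγ z => by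
    have e := periodHom1_eq (isPrimitive_prim1 h) ⟨γ, hγ⟩ z
    rw [show periodHom1 h = 0 from congrArg Subtype.val hh] at e
    exact sub_eq_zero.mp e.symm
  let G : ModularForm (Gamma1 M) 0 :=
    { toFun := prim1 h
      slash_action_eq' := fun γ hγ => by
        obtain ⟨g, hg, rfl⟩ := hγ
        show prim1 h ∣[(0 : ℤ)] g = prim1 h
        funext z
        rw [ModularForm.SL_slash_apply, neg_zero, zpow_zero, mul_one, hinv g hg]
      holo' := by
        rw [UpperHalfPlane.mdifferentiable_iff]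
        exact fun z hz => (isPrimitive_prim1 h ⟨z, hz⟩).differentiableAt.differentiableWithinAt
      bdd_at_cusps' := fun {c} hc => by
        rw [Subgroup.IsArithmetic.isCusp_iff_isCusp_SL2Z] at hc
        rw [OnePoint.isBoundedAt_iff_forall_SL2Z hc]
        intro g _
        obtain ⟨L, hL⟩ := exists_tendsto_prim1 h g
        have hb : IsBoundedAtImInfty (fun w : ℍ => prim1 h (g • w)) := hL.isBigO_one ℝ
        convert hb using 1
        funext z
        rw [ModularForm.SL_slash_apply, neg_zero, zpow_zero, mul_one] }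
  obtain ⟨c, hc⟩ := ModularForm.eq_const_of_weight_zero G
  have hc' : prim1 h = Function.const ℍ c := hc
  refine CuspForm.ext fun τ => ?_
  have hd := isPrimitive_prim1 h τ
  rw [hc'] at hd
  exact hd.unique (hasDerivAt_const (τ : ℂ) c)

/-! ### Operators given by finitely many integral matrices -/

theorem isCusp_smul_of_int {α : GL (Fin 2) ℝ} {A : Matrix (Fin 2) (Fin 2) ℤ}
    (hA : α.val = A.map (Int.castRingHom ℝ)) {c : OnePoint ℝ} (hc : IsCusp c 𝒮ℒ) :
    IsCusp (α • c) 𝒮ℒ := by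
  have hdet : (A.map (Int.castRingHom ℚ)).det ≠ 0 := by
    rw [← RingHom.mapMatrix_apply, ← RingHom.map_det]
    intro h
    refine (Matrix.GeneralLinearGroup.det_ne_zero α) ?_
    rw [hA, ← RingHom.mapMatrix_apply, ← RingHom.map_det, eq_intCast]
    rw [eq_intCast, Int.cast_eq_zero] at h
    exact_mod_cast h
  rw [isCusp_SL2Z_iff] at hc ⊢
  obtain ⟨c₀, rfl⟩ := hc
  refine ⟨Matrix.GeneralLinearGroup.mkOfDetNeZero _ hdet • c₀, ?_⟩
  rw [← Rat.coe_castHom, OnePoint.map_smul]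
  congr 1
  ext i j
  rw [hA]
  simp [Matrix.GeneralLinearGroup.mkOfDetNeZero]

variable {ι : Type*} [Fintype ι]

theorem isZeroAt_slashSum (α : ι → GL (Fin 2) ℝ)
    (hα : ∀ x, ∃ A : Matrix (Fin 2) (Fin 2) ℤ, (α x).val = A.map (Int.castRingHom ℝ))
    (h : CuspForm (Gamma1 M) 2) {c : OnePoint ℝ} (hc : IsCusp c 𝒮ℒ) :
    c.IsZeroAt (∑ x, ⇑h ∣[(2 : ℤ)] α x) 2 := by
  refine Finset.sum_induction _ (fun f => c.IsZeroAt f 2) (fun _ _ ha hb => ha.add hb) ?_
    fun x _ => ?_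
  · intro g _
    rw [SlashAction.zero_slash]
    exact Filter.zero_zeroAtFilter _
  · obtain ⟨A, hA⟩ := hα x
    rw [← OnePoint.IsZeroAt.smul_iff]
    refine CuspFormClass.zero_at_cusps h ?_
    rw [Subgroup.IsArithmetic.isCusp_iff_isCusp_SL2Z]
    exact isCusp_smul_of_int hA hc

/-- `h ↦ ∑ h ∣ αₓ` on cusp forms. -/
def slashSumEnd (α : ι → GL (Fin 2) ℝ)
    (hα : ∀ x, ∃ A : Matrix (Fin 2) (Fin 2) ℤ, (α x).val = A.map (Int.castRingHom ℝ))
    (hdet : ∀ x, 0 < ((α x).det : ℝ))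
    (hinv : ∀ h : CuspForm (Gamma1 M) 2, ∀ γ ∈ Gamma1 M,
      (∑ x, ⇑h ∣[(2 : ℤ)] α x) ∣[(2 : ℤ)] (γ : SL(2, ℤ)) = ∑ x, ⇑h ∣[(2 : ℤ)] α x) :
    Module.End ℂ (CuspForm (Gamma1 M) 2) where
  toFun h :=
    { toFun := ∑ x, ⇑h ∣[(2 : ℤ)] α x
      slash_action_eq' := fun γ hγ => by
        obtain ⟨g, hg, rfl⟩ := hγ
        exact hinv h g hg
      holo' := Finset.sum_induction _ (fun f : ℍ → ℂ => MDiff f) (fun _ _ ha hb => ha.add hb)
        mdifferentiable_const fun x _ => (CuspFormClass.holo h).slash 2 _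
      zero_at_cusps' := fun {c} hc => by
        rw [Subgroup.IsArithmetic.isCusp_iff_isCusp_SL2Z] at hc
        exact isZeroAt_slashSum α hα h hc }
  map_add' f g := DFunLike.coe_injective (by
    show ∑ x, ⇑(f + g) ∣[(2 : ℤ)] α x = (∑ x, ⇑f ∣[(2 : ℤ)] α x) + ∑ x, ⇑g ∣[(2 : ℤ)] α x
    rw [← Finset.sum_add_distrib]
    exact Finset.sum_congr rfl fun x _ => by rw [CuspForm.coe_add, SlashAction.add_slash])
  map_smul' a f := DFunLike.coe_injective (by
    show ∑ x, ⇑(a • f) ∣[(2 : ℤ)] α x = a • ∑ x, ⇑f ∣[(2 : ℤ)] α x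
    rw [Finset.smul_sum]
    exact Finset.sum_congr rfl fun x _ => smul_slash_of_det_pos 2 (hdet x) a _)

@[simp] theorem coe_slashSumEnd (α : ι → GL (Fin 2) ℝ) (hα) (hdet) (hinv)
    (h : CuspForm (Gamma1 M) 2) :
    ⇑(slashSumEnd α hα hdet hinv h) = ∑ x, ⇑h ∣[(2 : ℤ)] α x := rfl

open P2MW.S_ModularForm_heckeT_slash_eq_self_of_mem_Gamma0.ModularForm.HeckeSlashInvariance
  (heckeRep)

variable {p : ℕ} [hp : Fact p.Prime]

theorem det_heckeRep1_pos (hpM : ¬ p ∣ M) (x : OnePoint (ZMod p)) :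
    0 < ((heckeRep1 hpM x).det : ℝ) := by
  induction x using OnePoint.rec with
  | infty =>
    rw [heckeRep1_infty, map_mul, Units.val_mul]
    exact mul_pos (by simp [FLTA.Periods.gamma0GL]) (ModularForm.det_heckeDiagMatrix_pos p)
  | coe j => rw [heckeRep1_coe]; exact ModularForm.det_heckeMatrix_pos p _

variable (p) in
/-- `T_p` on cusp forms for `Γ₁(M)`. -/
def heckeEnd1 [NeZero p] (hpM : ¬ p ∣ M) : Module.End ℂ (CuspForm (Gamma1 M) 2) :=
  slashSumEnd (heckeRep1 hpM)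
    (fun x => (exists_int_heckeRep1 hpM x).imp fun _ hA => hA.1) (det_heckeRep1_pos hpM)
    fun h _ hγ => heckeFn1_slash 2 hpM (fun _ hγ' => slash_eq_of_mem_gamma1 h hγ') hγ

theorem coe_heckeEnd1 [NeZero p] (hpM : ¬ p ∣ M) (h : CuspForm (Gamma1 M) 2) :
    ⇑(heckeEnd1 p hpM h) = heckeFn1 2 hpM ⇑h := rfl

theorem periodHom1_heckeEnd1 [NeZero p] (hpM : ¬ p ∣ M) (h : CuspForm (Gamma1 M) 2) :
    periodHom1 (heckeEnd1 p hpM h) = (repsT1 hpM).transferHom (periodHom1 h) := by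
  set R := repsT1 hpM with hR
  set F := prim1 h
  have hrep : ∀ x, IsPrimitive (⇑h ∣[(2 : ℤ)] R.rep x) (fun τ => F (R.rep x • τ)) := fun x => by
    have h1 := Periods.isPrimitive_comp_heckeRep
      ((isPrimitive_prim1 h).comp_smul (repFactor hpM x : SL(2, ℤ))) (p := p) x
    rw [ModularForm.SL_slash, ← SlashAction.slash_mul] at h1
    intro τ
    have h2 := h1 τ
    simp only [hR, repsT1_rep, heckeRep1, mul_smul]
    exact h2
  have hG : IsPrimitive (⇑(heckeEnd1 p hpM h)) (fun τ => ∑ x, F (R.rep x • τ)) := by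
    intro τ
    have h1 := HasDerivAt.sum (u := Finset.univ) (fun x _ => hrep x τ)
    rw [coe_heckeEnd1, heckeFn1, Finset.sum_apply]
    refine h1.congr_of_eventuallyEq (Filter.Eventually.of_forall fun z => ?_)
    simp [F]
  refine AddMonoidHom.ext fun x => ?_
  obtain ⟨γ, rfl⟩ := Additive.ofMul.surjective x
  rw [periodHom1_eq hG γ UpperHalfPlane.I, FLTA.Periods.HeckeReps.transferHom_apply]
  set z := UpperHalfPlane.I
  have key : ∀ y, R.rep y • ((γ : SL(2, ℤ)) • z)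
      = ((R.cocyc γ y : Gamma1 M) : SL(2, ℤ)) • (R.rep (R.perm γ y) • z) := by
    intro y
    show R.rep y • (gamma1GL M γ • z) = gamma1GL M (R.cocyc γ y) • (R.rep (R.perm γ y) • z)
    rw [← mul_smul, R.rep_mul, mul_smul]
  have hper : ∀ y, periodHom1 h (Additive.ofMul (R.cocyc γ y))
      = F (R.rep y • ((γ : SL(2, ℤ)) • z)) - F (R.rep (R.perm γ y) • z) := fun y => by
    rw [key]; exact periodHom1_eq (isPrimitive_prim1 h) _ _
  simp only [hper, Finset.sum_sub_distrib]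
  congr 1
  exact (Equiv.sum_comp (R.permEquiv γ) (fun y => F (R.rep y • z))).symm

theorem periods1_heckeEnd1 [NeZero p] (hpM : ¬ p ∣ M) (h : CuspForm (Gamma1 M) 2) :
    periods1 M (heckeEnd1 p hpM h) = heckePar1 ℂ p (periods1 M h) := by
  refine Subtype.ext ?_
  rw [coe_periods1, coe_heckePar1, coe_periods1, heckeHom1_eq ℂ hpM,
    FLTA.Periods.HeckeReps.transfer_apply, periodHom1_heckeEnd1]

/-- `⟨u⟩` on cusp forms for `Γ₁(M)`. -/
def diamondEnd1 (u : (ZMod M)ˣ) : Module.End ℂ (CuspForm (Gamma1 M) 2) :=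
  slashSumEnd (fun _ : Unit => ((diamondRep u : SL(2, ℤ)) : GL (Fin 2) ℝ))
    (fun _ => ⟨(diamondRep u : SL(2, ℤ)).1, by ext i j; simp⟩) (fun _ => by simp)
    fun h γ hγ => by
      simp only [Finset.univ_unique, Finset.sum_singleton, ← ModularForm.SL_slash]
      exact slash_gamma0_slash_gamma1 h (diamondRep u) hγ

theorem coe_diamondEnd1 (u : (ZMod M)ˣ) (h : CuspForm (Gamma1 M) 2) :
    ⇑(diamondEnd1 u h) = ⇑h ∣[(2 : ℤ)] (diamondRep u : SL(2, ℤ)) := by
  simp [diamondEnd1, ModularForm.SL_slash]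

theorem periods1_diamondEnd1 (u : (ZMod M)ˣ) (h : CuspForm (Gamma1 M) 2) :
    periods1 M (diamondEnd1 u h) = diamondPar1 ℂ u (periods1 M h) := by
  refine Subtype.ext (AddMonoidHom.ext fun x => ?_)
  obtain ⟨γ, rfl⟩ := Additive.ofMul.surjective x
  set g : SL(2, ℤ) := (diamondRep u : SL(2, ℤ))
  have hG : IsPrimitive (⇑(diamondEnd1 u h)) (fun τ => prim1 h (g • τ)) := by
    rw [coe_diamondEnd1]
    exact (isPrimitive_prim1 h).comp_smul g
  have hc : ((conj1 (diamondRep u) γ : Gamma1 M) : SL(2, ℤ)) = g * (γ : SL(2, ℤ)) * g⁻¹ := rfl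
  show periodHom1 _ _ = periodHom1 h (Additive.ofMul (conj1 (diamondRep u) γ))
  rw [periodHom1_eq hG γ UpperHalfPlane.I,
    periodHom1_eq (isPrimitive_prim1 h) _ (g • UpperHalfPlane.I), hc]
  simp only [mul_smul, inv_smul_smul]

/-! ### Integral homomorphisms -/

variable (M) in
/-- Inclusion of the integral parabolic homomorphisms. -/
def parCast : parHom1 M ℤ ℤ →+ parHom1 M ℂ ℂ where
  toFun φ := ⟨(Int.castAddHom ℂ).comp φ.1, fun γ hγ => by
    rw [AddMonoidHom.comp_apply, mem_parabolicHoms_iff.mp φ.2 γ hγ, map_zero]⟩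
  map_zero' := Subtype.ext (by ext; simp)
  map_add' φ ψ := Subtype.ext (by ext; simp)

theorem coe_parCast (φ : parHom1 M ℤ ℤ) :
    ((parCast M φ : parHom1 M ℂ ℂ) : Additive (Gamma1 M) →+ ℂ) = (Int.castAddHom ℂ).comp φ.1 := rfl

theorem span_range_parCast : Submodule.span ℂ (Set.range (parCast M)) = ⊤ := by
  classical
  refine eq_top_iff.mpr fun φ _ => ?_
  obtain ⟨w, hw⟩ := Periods.exists_parQuot_factor φ.2
  set b := Module.Free.chooseBasis ℤ (Periods.parQuot (Gamma1 M))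
  let ψ : Module.Free.ChooseBasisIndex ℤ (Periods.parQuot (Gamma1 M)) → parHom1 M ℤ ℤ := fun i =>
    ⟨(b.coord i).toAddMonoidHom.comp (Periods.parMk (Gamma1 M)),
      Periods.isParabolicHom_comp_parMk _⟩
  have e : φ = ∑ i, w (b i) • parCast M (ψ i) := by
    refine Subtype.ext (AddMonoidHom.ext fun γ => ?_)
    simp only [AddSubmonoidClass.coe_finsetSum, SetLike.val_smul, AddMonoidHom.finsetSum_apply]
    rw [← hw, AddMonoidHom.comp_apply]
    conv_lhs => rw [← b.sum_repr (Periods.parMk (Gamma1 M) γ), map_sum]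
    refine Finset.sum_congr rfl fun i _ => ?_
    show w (b.repr (Periods.parMk (Gamma1 M) γ) i • b i) =
      w (b i) • ((b.repr (Periods.parMk (Gamma1 M) γ) i : ℤ) : ℂ)
    rw [map_zsmul, zsmul_eq_mul, smul_eq_mul, mul_comm]
  rw [e]
  exact Submodule.sum_mem _ fun i _ => Submodule.smul_mem _ _ (Submodule.subset_span ⟨ψ i, rfl⟩)

theorem parCast_heckePar1 (q : ℕ) (φ : parHom1 M ℤ ℤ) :
    heckePar1 ℂ q (parCast M φ) = parCast M (heckePar1 ℤ q φ) := by
  refine Subtype.ext ?_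
  rw [coe_heckePar1, coe_parCast, coe_parCast, coe_heckePar1, heckeHom1_eq_int ℂ, heckeHom1_comp]

theorem parCast_diamondPar1 (u : (ZMod M)ˣ) (φ : parHom1 M ℤ ℤ) :
    diamondPar1 ℂ u (parCast M φ) = parCast M (diamondPar1 ℤ u φ) := rfl

/-- `E` is the operator on cusp forms induced by `T`. -/
def IsLift1 (T : Module.End ℤ (parHom1 M ℤ ℤ)) (E : Module.End ℂ (CuspForm (Gamma1 M) 2)) : Prop :=
  ∃ TC : Module.End ℂ (parHom1 M ℂ ℂ), (∀ φ, TC (parCast M φ) = parCast M (T φ)) ∧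
    ∀ h, periods1 M (E h) = TC (periods1 M h)

theorem IsLift1.unique {T : Module.End ℤ (parHom1 M ℤ ℤ)}
    {E E' : Module.End ℂ (CuspForm (Gamma1 M) 2)} (h : IsLift1 T E) (h' : IsLift1 T E') :
    E = E' := by
  obtain ⟨TC, h1, h2⟩ := h
  obtain ⟨TC', h1', h2'⟩ := h'
  have e : TC = TC' := LinearMap.ext_on span_range_parCast (by
    rintro _ ⟨φ, rfl⟩
    rw [h1, h1'])
  exact LinearMap.ext fun f => periods1_injective (by rw [h2, h2', e])

theorem IsLift1.one : IsLift1 (1 : Module.End ℤ (parHom1 M ℤ ℤ)) 1 :=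
  ⟨1, fun _ => rfl, fun _ => rfl⟩

theorem IsLift1.zero : IsLift1 (0 : Module.End ℤ (parHom1 M ℤ ℤ)) 0 :=
  ⟨0, fun _ => (map_zero (parCast M)).symm, fun _ => map_zero _⟩

theorem IsLift1.add {S T : Module.End ℤ (parHom1 M ℤ ℤ)}
    {D E : Module.End ℂ (CuspForm (Gamma1 M) 2)} (hS : IsLift1 S D) (hT : IsLift1 T E) :
    IsLift1 (S + T) (D + E) := by
  obtain ⟨SC, s1, s2⟩ := hS
  obtain ⟨TC, t1, t2⟩ := hT
  exact ⟨SC + TC, fun φ => by simp [s1, t1], fun f => by simp [s2, t2]⟩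

theorem IsLift1.mul {S T : Module.End ℤ (parHom1 M ℤ ℤ)}
    {D E : Module.End ℂ (CuspForm (Gamma1 M) 2)} (hS : IsLift1 S D) (hT : IsLift1 T E) :
    IsLift1 (S * T) (D * E) := by
  obtain ⟨SC, s1, s2⟩ := hS
  obtain ⟨TC, t1, t2⟩ := hT
  exact ⟨SC * TC, fun φ => by simp [s1, t1], fun f => by simp [s2, t2]⟩

theorem isLift1_heckePar1 [NeZero p] (hpM : ¬ p ∣ M) :
    IsLift1 (heckePar1 ℤ p) (heckeEnd1 p hpM) :=
  ⟨heckePar1 ℂ p, parCast_heckePar1 p, periods1_heckeEnd1 hpM⟩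

theorem isLift1_diamondPar1 (u : (ZMod M)ˣ) : IsLift1 (diamondPar1 ℤ u) (diamondEnd1 u) :=
  ⟨diamondPar1 ℂ u, parCast_diamondPar1 u, periods1_diamondEnd1 u⟩

theorem exists_isLift1 (T : hecke1Alg M) :
    ∃ E, IsLift1 (T : Module.End ℤ (parHom1 M ℤ ℤ)) E := by
  obtain ⟨T, hT⟩ := T
  show ∃ E, IsLift1 T E
  induction hT using Algebra.adjoin_induction with
  | mem x hx =>
    rcases hx with ⟨q, hq, hqM, rfl⟩ | ⟨u, rfl⟩
    · haveI := Fact.mk hq
      haveI : NeZero q := ⟨hq.ne_zero⟩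
      exact ⟨_, isLift1_heckePar1 hqM⟩
    · exact ⟨_, isLift1_diamondPar1 u⟩
  | algebraMap r =>
    refine ⟨algebraMap ℤ _ r, algebraMap ℤ _ r, fun φ => ?_, fun f => ?_⟩
    · simp [Module.algebraMap_end_apply]
    · simp [Module.algebraMap_end_apply]
  | add x y _ _ hx hy => exact ⟨_, hx.choose_spec.add hy.choose_spec⟩
  | mul x y _ _ hx hy => exact ⟨_, hx.choose_spec.mul hy.choose_spec⟩

/-- The action on cusp forms of the algebra generated by `T_p` and `⟨d⟩`. -/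
theorem exists_hecke1Action (M : ℕ) [NeZero M] :
    ∃ Φ : hecke1Alg M →+* Module.End ℂ (CuspForm (Gamma1 M) 2),
      (∀ (p : ℕ) (hp : p.Prime) (hpM : ¬ p ∣ M) (h : CuspForm (Gamma1 M) 2),
        haveI := Fact.mk hp
        ⇑(Φ ⟨_, heckePar1_mem hp hpM⟩ h) = heckeFn1 2 hpM ⇑h) ∧
      ∀ (u : (ZMod M)ˣ) (h : CuspForm (Gamma1 M) 2),
        ⇑(Φ ⟨_, diamondPar1_mem u⟩ h) = ⇑h ∣[(2 : ℤ)] (diamondRep u : SL(2, ℤ)) := by
  choose E hE using fun T : hecke1Alg M => exists_isLift1 T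
  let Φ : hecke1Alg M →+* Module.End ℂ (CuspForm (Gamma1 M) 2) :=
    { toFun := E
      map_one' := (hE 1).unique IsLift1.one
      map_mul' := fun S T => (hE _).unique ((hE S).mul (hE T))
      map_zero' := (hE 0).unique IsLift1.zero
      map_add' := fun S T => (hE _).unique ((hE S).add (hE T)) }
  refine ⟨Φ, fun q hq hqM h => ?_, fun u h => ?_⟩
  · haveI := Fact.mk hq
    haveI : NeZero q := ⟨hq.ne_zero⟩
    show ⇑(E ⟨_, heckePar1_mem hq hqM⟩ h) = _
    rw [(hE ⟨_, heckePar1_mem hq hqM⟩).unique (isLift1_heckePar1 hqM)]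
    rfl
  · show ⇑(E ⟨_, diamondPar1_mem u⟩ h) = _
    rw [(hE ⟨_, diamondPar1_mem u⟩).unique (isLift1_diamondPar1 u), coe_diamondEnd1]

end FLTA.DeligneSerre
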