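import Fermat.Agent.DeligneSerre.Eigen.TimesE
import Fermat.Agent.DeligneSerre.Eigen.Periods1

/-!
# The mod `l` Hecke character of an integral weight one eigenform
-/

set_option autoImplicit false

noncomputable section

open UpperHalfPlane hiding I
open CongruenceSubgroup Matrix.SpecialLinearGroup ModularFormClass
open scoped MatrixGroups ModularForm Manifold OnePoint

namespace FLTA.DeligneSerre

open P2MW.S_ModularForm_heckeT_slash_eq_self_of_mem_Gamma0.ModularForm.HeckeSlashInvariance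
  (heckeRep redMatrix)

local notation "Qb" => AlgebraicClosure ℚ

theorem coe_cusp_intSmul {M : ℕ} {k : ℤ} (z : ℤ) (h : CuspForm (Gamma1 M) k) :
    ⇑(z • h) = (z : ℂ) • ⇑h := by
  funext τ
  show (z • h : CuspForm (Gamma1 M) k) τ = _
  simp

variable {M : ℕ} [NeZero M]

theorem heckeFn1_slash_gamma0 {k : ℤ} {p : ℕ} [hp : Fact p.Prime] (hpM : ¬ p ∣ M)
    (h : CuspForm (Gamma1 M) k) (g : Gamma0 M) :
    heckeFn1 k hpM ⇑h ∣[k] (g : SL(2, ℤ)) = heckeFn1 k hpM (⇑h ∣[k] (g : SL(2, ℤ))) := by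
  haveI : NeZero p := ⟨hp.out.ne_zero⟩
  rw [ModularForm.SL_slash (f := heckeFn1 k hpM ⇑h), heckeFn1, heckeFn1, SlashAction.sum_slash]
  calc _ = ∑ x : OnePoint (ZMod p), (⇑h ∣[k] (g : SL(2, ℤ))) ∣[k]
        heckeRep1 hpM (redMatrix p (g : SL(2, ℤ)) • x) := by
        refine Finset.sum_congr rfl fun x _ => ?_
        obtain ⟨δ, hδ, hmul⟩ := heckeRep1_mul hpM g x
        rw [← SlashAction.slash_mul]
        erw [hmul]
        rw [SlashAction.slash_mul]
        congr 1
        exact slash_congr_lowerRight h hδ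
    _ = _ := Equiv.sum_comp (MulAction.toPerm (redMatrix p (g : SL(2, ℤ))))
        fun x => (⇑h ∣[k] (g : SL(2, ℤ))) ∣[k] heckeRep1 hpM x

theorem slash_diamondRep_mul {k : ℤ} (h : CuspForm (Gamma1 M) k) (u v : (ZMod M)ˣ) :
    (⇑h ∣[k] (diamondRep u : SL(2, ℤ))) ∣[k] (diamondRep v : SL(2, ℤ)) =
      ⇑h ∣[k] (diamondRep (u * v) : SL(2, ℤ)) := by
  rw [← SlashAction.slash_mul]
  have e := slash_congr_lowerRight h (g := diamondRep u * diamondRep v) (h := diamondRep (u * v))
    (by rw [map_mul, lowerRight_diamondRep, lowerRight_diamondRep, lowerRight_diamondRep])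
  rw [Subgroup.coe_mul] at e
  exact e

theorem slash_diamondRep_one {k : ℤ} (h : CuspForm (Gamma1 M) k) :
    ⇑h ∣[k] (diamondRep (1 : (ZMod M)ˣ) : SL(2, ℤ)) = ⇑h := by
  rw [slash_congr_lowerRight h (h := 1) (by simp), OneMemClass.coe_one, SlashAction.slash_one]

/-- The character modulo a place of residue characteristic `l`. -/
theorem exists_char_of_integral {N : ℕ} [NeZero N] {ε : DirichletCharacter ℂ N}
    (e : DirichletCharacter Qb N) (he : ∀ d : ZMod N, iota (e d) = ε d)
    {f : CuspForm (Gamma1 N) 1} (hf : IsEigenOne N ε f) {l : ℕ} (hl : l.Prime) (h5 : 5 ≤ l)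
    [NeZero (N * l)] {A : ValuationSubring Qb} (hA : A.LiesOverPrime l)
    (hint : ∀ n : ℕ, ∃ a : A, iota (a : Qb) = qCoeff f n) :
    ∃ χ : hecke1Alg (N * l) →+* IsLocalRing.ResidueField A,
      (∀ p : ℕ, (hp : p.Prime) → (hpN : ¬ p ∣ N * l) →
        ∃ a' : A, iota (a' : Qb) = qCoeff f p ∧
          χ ⟨_, heckePar1_mem hp hpN⟩ = IsLocalRing.residue A a') ∧
      ∀ u : (ZMod (N * l))ˣ, ∃ e' : A,
        (e' : Qb) = e (ZMod.castHom (dvd_mul_right N l) (ZMod N) (u : ZMod (N * l))) ∧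
        χ ⟨_, diamondPar1_mem u⟩ * ((u : ZMod (N * l)).val : IsLocalRing.ResidueField A) =
          IsLocalRing.residue A e' := by
  haveI : NeZero l := ⟨hl.ne_zero⟩
  haveI : CharP (IsLocalRing.ResidueField A) l := Galois.charP_residueField hl hA
  set k := IsLocalRing.ResidueField A
  choose af haf using hint
  set fb : ℕ → k := fun n => IsLocalRing.residue A (af n) with hfb_def
  have hfb : ∀ n, ModRed A (qCoeff f n) (fb n) := fun n => ⟨af n, haf n, rfl⟩
  have hfb1 : fb 1 = 1 := (hfb 1).unique (hf.1 ▸ modRed_one)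
  -- the values of `e`
  have heA : ∀ d : ZMod N, e d ∈ A := by
    intro d
    by_cases hd : IsUnit d
    · refine Galois.mem_of_isIntegral ?_
      obtain ⟨v, rfl⟩ := hd
      have h1 : e (v : ZMod N) ^ Fintype.card (ZMod N)ˣ = 1 := by
        rw [← map_pow, ← Units.val_pow_eq_pow_val, pow_card_eq_one, Units.val_one, map_one]
      exact IsIntegral.of_pow Fintype.card_pos (h1 ▸ isIntegral_one)
    · rw [e.map_nonunit hd]; exact A.zero_mem
  set π := ZMod.castHom (dvd_mul_right N l) (ZMod N) with hπ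
  set θ := ZMod.castHom (dvd_mul_left l N) k with hθ
  set eb : (ZMod (N * l))ˣ → A := fun u => ⟨e (π u), heA _⟩
  set W : (ZMod (N * l))ˣ → k := fun u => IsLocalRing.residue A (eb u) * (θ u)⁻¹ with hW
  have hθval : ∀ x : ZMod (N * l), θ x = (x.val : k) := fun x => by
    conv_lhs => rw [← ZMod.natCast_zmod_val x]
    rw [map_natCast]
  have hθ0 : ∀ u : (ZMod (N * l))ˣ, θ u ≠ 0 := fun u => (u.isUnit.map θ).ne_zero
  have hebmul : ∀ u v, eb (u * v) = eb u * eb v := fun u v => Subtype.ext (by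
    show e (π ((u * v : (ZMod (N * l))ˣ) : ZMod (N * l))) = e (π u) * e (π v)
    rw [Units.val_mul, map_mul, map_mul])
  have hWmul : ∀ u v, W (u * v) = W u * W v := fun u v => by
    simp only [hW, hebmul, map_mul, Units.val_mul, mul_inv]; ring
  have hW1 : W 1 = 1 := by
    have h1 : eb 1 = 1 := Subtype.ext (by
      show e (π ((1 : (ZMod (N * l))ˣ) : ZMod (N * l))) = 1
      rw [Units.val_one, map_one, map_one])
    simp only [hW, h1, map_one, Units.val_one, inv_one, mul_one]
  -- the congruence property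
  let P : CuspForm (Gamma1 (N * l)) 2 → k → Prop := fun h c =>
    ∀ (u : (ZMod (N * l))ˣ) (n : ℕ),
      ModRed A (qCoeff (⇑h ∣[(2 : ℤ)] (diamondRep u : SL(2, ℤ))) n) (c * W u * fb n)
  obtain ⟨E, hE⟩ := exists_weightOne_congr_one hl h5 hA
  set g0 := timesE f E
  have hg0 : P g0 1 := by
    intro u n
    have hd : (((diamondRep u : SL(2, ℤ)).1 1 1 : ℤ) : ZMod (N * l)) = (u : ZMod (N * l)) := by
      rw [← coe_lowerRight, lowerRight_diamondRep]
    have hdN : (((diamondRep u : SL(2, ℤ)).1 1 1 : ℤ) : ZMod N) = π u := by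
      rw [← hd, map_intCast]
    have hdk : (((diamondRep u : SL(2, ℤ)).1 1 1 : ℤ) : k) = θ u := by
      rw [← hd, map_intCast]
    have hcu : ModRed A (ε (((diamondRep u : SL(2, ℤ)).1 1 1 : ℤ) : ZMod N))
        (IsLocalRing.residue A (eb u)) := by
      rw [hdN, ← he]; exact modRed_iota (eb u)
    have := modRed_qCoeff_timesE hl hf hA hE hfb (diamondRep u) hcu n
    rw [hdk] at this
    simpa [hW] using this
  obtain ⟨Φ, hΦT, hΦD⟩ := exists_hecke1Action (N * l)
  let Q : hecke1Alg (N * l) → k → Prop := fun T r => ∀ h c, P h c → P (Φ T h) (r * c)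
  have hQD : ∀ v, Q ⟨_, diamondPar1_mem v⟩ (W v) := by
    intro v h c hh u n
    rw [hΦD, slash_diamondRep_mul]
    have := hh (v * u) n
    rw [hWmul] at this
    convert this using 1
    ring
  have hQT : ∀ (p : ℕ) (hp : p.Prime) (hpM : ¬ p ∣ N * l),
      Q ⟨_, heckePar1_mem hp hpM⟩ (fb p) := by
    intro p hp hpM h c hh u n
    haveI := Fact.mk hp
    have hpN : ¬ p ∣ N := fun h' => hpM (h'.trans (dvd_mul_right N l))
    rw [hΦT p hp hpM, heckeFn1_slash_gamma0, heckeFn1_eq, slash_diamondRep_mul]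
    set pu := primeUnit hp hpM
    have n1 := slash_gamma0_mem_nice h (diamondRep u)
    have n2 := slash_gamma0_mem_nice h (diamondRep (u * pu))
    rw [qCoeff_add_nice (heckeU_mem_nice n1 2 p) (diag_mem_nice n2 2 p),
      qCoeff_heckeU_nice n1 2 hp.ne_zero, qCoeff_diag_nice n2 2 hp.ne_zero]
    set eP : A := ⟨e (p : ZMod N), heA _⟩
    have hpW : (p : k) * W pu = IsLocalRing.residue A eP := by
      have h1 : eb pu = eP := Subtype.ext (by
        show e (π (pu : ZMod (N * l))) = e (p : ZMod N)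
        rw [coe_primeUnit, map_natCast])
      have h2 : θ (pu : ZMod (N * l)) = (p : k) := by rw [coe_primeUnit, map_natCast]
      simp only [hW, h1, h2]
      have h3 : (p : k) ≠ 0 := h2 ▸ hθ0 pu
      rw [mul_left_comm, mul_inv_cancel₀ h3, mul_one]
    have hrel : fb (p * n) + IsLocalRing.residue A eP * (if p ∣ n then fb (n / p) else 0) =
        fb p * fb n := by
      refine ModRed.unique ?_ ((hf.2 p hp hpN n).symm ▸ (hfb p).mul (hfb n))
      refine (hfb (p * n)).add ?_
      refine (show ModRed A (ε (p : ZMod N)) (IsLocalRing.residue A eP) by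
        rw [← he]; exact modRed_iota eP).mul ?_
      split_ifs
      · exact hfb _
      · exact modRed_zero
    have hsnd : ModRed A
        (if p ∣ n then (p : ℂ) ^ ((2 : ℤ) - 1) *
          qCoeff (⇑h ∣[(2 : ℤ)] (diamondRep (u * pu) : SL(2, ℤ))) (n / p) else 0)
        (c * W u * (IsLocalRing.residue A eP * (if p ∣ n then fb (n / p) else 0))) := by
      split_ifs
      · have h1 := (modRed_natCast (A := A) p).mul (hh (u * pu) (n / p))
        rw [hWmul] at h1
        rw [← hpW]
        norm_num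
        convert h1 using 1
        ring
      · simpa using modRed_zero
    have hfin := (hh u (n * p)).add hsnd
    rw [← mul_add, mul_comm n p, hrel] at hfin
    convert hfin using 1
    · rw [mul_comm n p]
    · ring
  have hQ : ∀ T, ∃ r, Q T r := by
    rintro ⟨T, hT⟩
    induction hT using Algebra.adjoin_induction with
    | mem x hx =>
      rcases hx with ⟨p, hp, hpM, rfl⟩ | ⟨v, rfl⟩
      · exact ⟨fb p, hQT p hp hpM⟩
      · exact ⟨W v, hQD v⟩
    | algebraMap z =>
      refine ⟨(z : k), fun h c hh u n => ?_⟩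
      have e1 : Φ ⟨algebraMap ℤ _ z, Subalgebra.algebraMap_mem _ z⟩ = (z : Module.End ℂ _) := by
        rw [show (⟨algebraMap ℤ _ z, Subalgebra.algebraMap_mem _ z⟩ : hecke1Alg (N * l)) = (z : _) from
          Subtype.ext (by simp), map_intCast]
      rw [e1, Module.End.intCast_apply, coe_cusp_intSmul, smul_slash_SL,
        qCoeff_smul_nice (slash_gamma0_mem_nice h (diamondRep u))]
      convert (modRed_intCast (A := A) z).mul (hh u n) using 1
      ring
    | add x y hx hy ihx ihy =>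
      obtain ⟨r, hr⟩ := ihx
      obtain ⟨s, hs⟩ := ihy
      refine ⟨r + s, fun h c hh u n => ?_⟩
      have e1 : Φ ⟨x + y, add_mem hx hy⟩ h = Φ ⟨x, hx⟩ h + Φ ⟨y, hy⟩ h := by
        rw [show (⟨x + y, add_mem hx hy⟩ : hecke1Alg (N * l)) = ⟨x, hx⟩ + ⟨y, hy⟩ from rfl,
          map_add, LinearMap.add_apply]
      rw [e1, CuspForm.coe_add, SlashAction.add_slash,
        qCoeff_add_nice (slash_gamma0_mem_nice _ _) (slash_gamma0_mem_nice _ _)]
      convert (hr h c hh u n).add (hs h c hh u n) using 1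
      ring
    | mul x y hx hy ihx ihy =>
      obtain ⟨r, hr⟩ := ihx
      obtain ⟨s, hs⟩ := ihy
      refine ⟨r * s, fun h c hh => ?_⟩
      have e1 : Φ ⟨x * y, mul_mem hx hy⟩ h = Φ ⟨x, hx⟩ (Φ ⟨y, hy⟩ h) := by
        rw [show (⟨x * y, mul_mem hx hy⟩ : hecke1Alg (N * l)) = ⟨x, hx⟩ * ⟨y, hy⟩ from rfl,
          map_mul, Module.End.mul_apply]
      rw [e1, mul_assoc]
      exact hr _ _ (hs h c hh)
  have huniq : ∀ T r s, Q T r → Q T s → r = s := by
    intro T r s hr hs
    have h1 := hr g0 1 hg0 1 1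
    have h2 := hs g0 1 hg0 1 1
    simpa [hW1, hfb1] using h1.unique h2
  choose r hr using hQ
  have hr1 : r 1 = 1 := huniq 1 _ _ (hr 1) fun h c hh => by rw [map_one, one_mul]; exact hh
  have hrmul : ∀ S T, r (S * T) = r S * r T := fun S T => huniq _ _ _ (hr _) fun h c hh => by
    rw [map_mul, mul_assoc]; exact hr S _ _ (hr T h c hh)
  have hradd : ∀ S T, r (S + T) = r S + r T := fun S T => huniq _ _ _ (hr _) fun h c hh u n => by
    rw [map_add, LinearMap.add_apply, CuspForm.coe_add, SlashAction.add_slash,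
      qCoeff_add_nice (slash_gamma0_mem_nice _ _) (slash_gamma0_mem_nice _ _)]
    convert (hr S h c hh u n).add (hr T h c hh u n) using 1
    ring
  let χ : hecke1Alg (N * l) →+* k :=
    RingHom.mk' ⟨⟨r, hr1⟩, hrmul⟩ hradd
  refine ⟨χ, fun p hp hpM => ⟨af p, haf p, huniq _ _ _ (hr _) (hQT p hp hpM)⟩,
    fun u => ⟨eb u, rfl, ?_⟩⟩
  show r _ * _ = _
  rw [huniq _ _ _ (hr _) (hQD u), ← hθval]
  simp only [hW]
  rw [mul_assoc, inv_mul_cancel₀ (hθ0 u), mul_one]

end FLTA.DeligneSerre
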