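import Mathlib
import Fermat.Prelude.Def_FLTPrelim_Modularity
import Fermat.Prelude.Def_GaloisRep_Residual
import Fermat.Prelude.Def_Deformations_MatrixRepresentation
import Fermat.Agent.DeligneSerre.Level.Defs

/-!
# Weight one eigenforms: definitions
-/

set_option autoImplicit false

noncomputable section

open CongruenceSubgroup
open scoped MatrixGroups

namespace FLTA.DeligneSerre

local notation "Qb" => AlgebraicClosure ℚ
local notation "Γℚ" => (Qb ≃ₐ[ℚ] Qb)

/-- The hypothesis of the theorem of Deligne and Serre. -/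
def IsEigenOne (N : ℕ) [NeZero N] (ε : DirichletCharacter ℂ N) (f : CuspForm (Gamma1 N) 1) :
    Prop :=
  ModularFormClass.qCoeff f 1 = 1 ∧ ∀ p : ℕ, p.Prime → ¬ p ∣ N → ∀ n : ℕ,
    ModularFormClass.qCoeff f (p * n) +
        ε (p : ZMod N) * (if p ∣ n then ModularFormClass.qCoeff f (n / p) else 0) =
      ModularFormClass.qCoeff f p * ModularFormClass.qCoeff f n

/-- `ρ` is irreducible or conjugate to a diagonal representation. -/
def IsSemisimpleTwo {k : Type} [Field k] (ρ : Γℚ →* GL (Fin 2) k) : Prop :=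
  (Deformation.matrixRepresentation ρ).IsIrreducible ∨
    ∃ P : GL (Fin 2) k, ∀ σ : Γℚ,
      ((P * ρ σ * P⁻¹ : GL (Fin 2) k) : Matrix (Fin 2) (Fin 2) k).IsDiag

end FLTA.DeligneSerre
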