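import Fermat.Agent.DeligneSerre.Level.Defs

/-!
# Congruences of complex numbers with `A`-integral algebraic values
-/

set_option autoImplicit false

noncomputable section

namespace FLTA.DeligneSerre

local notation "Qb" => AlgebraicClosure ℚ

variable (A : ValuationSubring Qb)

/-- `z` is `iota` of an element of `A` with residue `r`. -/
def ModRed (z : ℂ) (r : IsLocalRing.ResidueField A) : Prop :=
  ∃ a : A, iota (a : Qb) = z ∧ IsLocalRing.residue A a = r

variable {A} {z w : ℂ} {r s : IsLocalRing.ResidueField A}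

theorem modRed_iota (a : A) : ModRed A (iota (a : Qb)) (IsLocalRing.residue A a) := ⟨a, rfl, rfl⟩

theorem ModRed.add (h : ModRed A z r) (h' : ModRed A w s) : ModRed A (z + w) (r + s) := by
  obtain ⟨a, rfl, rfl⟩ := h; obtain ⟨b, rfl, rfl⟩ := h'
  exact ⟨a + b, by push_cast; rw [map_add], map_add _ _ _⟩

theorem ModRed.mul (h : ModRed A z r) (h' : ModRed A w s) : ModRed A (z * w) (r * s) := by
  obtain ⟨a, rfl, rfl⟩ := h; obtain ⟨b, rfl, rfl⟩ := h'
  exact ⟨a * b, by push_cast; rw [map_mul], map_mul _ _ _⟩

theorem modRed_intCast (n : ℤ) : ModRed A (n : ℂ) (n : IsLocalRing.ResidueField A) :=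
  ⟨(n : A), by push_cast; rw [map_intCast], map_intCast _ _⟩

theorem modRed_natCast (n : ℕ) : ModRed A (n : ℂ) (n : IsLocalRing.ResidueField A) := by
  simpa using modRed_intCast (A := A) n

theorem modRed_zero : ModRed A 0 0 := by simpa using modRed_natCast (A := A) 0

theorem modRed_one : ModRed A 1 1 := by simpa using modRed_natCast (A := A) 1

theorem ModRed.sum {ι : Type*} (t : Finset ι) {Z : ι → ℂ} {R : ι → IsLocalRing.ResidueField A}
    (h : ∀ i ∈ t, ModRed A (Z i) (R i)) : ModRed A (∑ i ∈ t, Z i) (∑ i ∈ t, R i) := by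
  classical
  induction t using Finset.induction with
  | empty => simpa using modRed_zero
  | insert a t ha ih =>
    rw [Finset.sum_insert ha, Finset.sum_insert ha]
    exact (h a (by simp)).add (ih fun i hi => h i (by simp [hi]))

theorem ModRed.unique (h : ModRed A z r) (h' : ModRed A z s) : r = s := by
  obtain ⟨a, ha, rfl⟩ := h; obtain ⟨b, hb, rfl⟩ := h'
  rw [show a = b from Subtype.ext (iota.injective (ha.trans hb.symm))]

end FLTA.DeligneSerre
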