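import Fermat.Agent.DeligneSerre.Eigen.Diamond
import Fermat.Agent.DeligneSerre.Eigen.ModRed
import Fermat.Agent.DeligneSerre.Level.WeightOne

/-!
# A weight two cusp form congruent to a given weight one form
-/

set_option autoImplicit false

noncomputable section

open UpperHalfPlane hiding I
open CongruenceSubgroup Matrix.SpecialLinearGroup ModularFormClass
open scoped MatrixGroups ModularForm Manifold

namespace FLTA.DeligneSerre

local notation "Qb" => AlgebraicClosure ℚ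

theorem gamma1_le_of_dvd {M N : ℕ} (h : M ∣ N) : Gamma1 N ≤ Gamma1 M := by
  intro g hg
  obtain ⟨h0, h1, h2⟩ := (Gamma1_mem N g).1 hg
  have hz : ∀ z : ℤ, ∀ w : ℕ, (z : ZMod N) = (w : ZMod N) → (z : ZMod M) = (w : ZMod M) := by
    intro z w e
    have := congrArg (ZMod.castHom h (ZMod M)) e
    simpa using this
  exact (Gamma1_mem M g).2 ⟨by simpa using hz _ 1 (by simpa using h0),
    by simpa using hz _ 1 (by simpa using h1), by simpa using hz _ 0 (by simpa using h2)⟩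

theorem gamma0_le_of_dvd {M N : ℕ} (h : M ∣ N) : Gamma0 N ≤ Gamma0 M := fun g hg =>
  FLTA.Periods.mem_Gamma0_of_dvd
    ((Int.natCast_dvd_natCast.mpr h).trans (FLTA.Periods.dvd_of_mem_Gamma0 hg))

/-- Translates by `Γ₀(M)` of modular forms on `Γ₁(M)` are nice. -/
theorem modular_slash_mem_nice {M : ℕ} [NeZero M] {k : ℤ} (E : ModularForm (Gamma1 M) k)
    (g : Gamma0 M) : ⇑E ∣[k] (g : SL(2, ℤ)) ∈ NiceQ := by
  refine ⟨periodic_one_of_slash k ?_, (ModularFormClass.holo E).slash k _,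
    ModularFormClass.bdd_at_infty_slash E _⟩
  rw [← SlashAction.slash_mul]
  have hT1 : ModularGroup.T ∈ Gamma1 M := by simpa using T_zpow_mem_gamma1 (N := M) 1
  obtain ⟨h0, h1⟩ := mem_gamma1_iff.1 hT1
  have hm : (g : SL(2, ℤ)) * ModularGroup.T * (g : SL(2, ℤ))⁻¹ ∈ Gamma1 M := by
    refine mem_gamma1_iff.2 ⟨mul_mem (mul_mem g.2 h0) (inv_mem g.2), ?_⟩
    show lowerRight M (g * ⟨_, h0⟩ * g⁻¹) = 1
    simp [h1]
  conv_lhs => rw [show (g : SL(2, ℤ)) * ModularGroup.T =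
    (g : SL(2, ℤ)) * ModularGroup.T * (g : SL(2, ℤ))⁻¹ * g by simp [mul_assoc]]
  rw [SlashAction.slash_mul, slash_eq_of_mem_gamma1 E hm]

variable {N l : ℕ} [NeZero N]

/-- The product of a weight one cusp form of level `N` and a weight one form of level `l`. -/
def timesE [NeZero l] (f : CuspForm (Gamma1 N) 1) (E : ModularForm (Gamma1 l) 1) :
    CuspForm (Gamma1 (N * l)) 2 where
  toFun := ⇑f * ⇑E
  slash_action_eq' γ hγ := by
    obtain ⟨g, hg, rfl⟩ := hγ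
    have h1 := slash_eq_of_mem_gamma1 f (gamma1_le_of_dvd (dvd_mul_right N l) hg)
    have h2 := slash_eq_of_mem_gamma1 E (gamma1_le_of_dvd (dvd_mul_left l N) hg)
    show (⇑f * ⇑E) ∣[(2 : ℤ)] g = ⇑f * ⇑E
    rw [show (2 : ℤ) = 1 + 1 from rfl, ModularForm.mul_slash_SL2, h1, h2]
  holo' := (CuspFormClass.holo f).mul (ModularFormClass.holo E)
  zero_at_cusps' {c} hc := by
    haveI : NeZero (N * l) := ⟨Nat.mul_ne_zero (NeZero.ne N) (NeZero.ne l)⟩
    rw [OnePoint.isZeroAt_iff_forall_SL2Z ((Subgroup.IsArithmetic.isCusp_iff_isCusp_SL2Z _).mp hc)]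
    intro γ _
    show IsZeroAtImInfty ((⇑f * ⇑E) ∣[(2 : ℤ)] γ)
    rw [show (2 : ℤ) = 1 + 1 from rfl, ModularForm.mul_slash_SL2]
    exact (cusp_slash_isZero f γ).mul_boundedAtFilter (ModularFormClass.bdd_at_infty_slash E γ)

theorem qCoeff_mul_nice {h h' : ℍ → ℂ} (hh : h ∈ NiceQ) (hh' : h' ∈ NiceQ) (n : ℕ) :
    qCoeff (h * h') n = ∑ x ∈ Finset.HasAntidiagonal.antidiagonal n, qCoeff h x.1 * qCoeff h' x.2 := by
  simp only [qCoeff]
  rw [qExpansion_mul (analyticAt_of_nice hh) (analyticAt_of_nice hh'), PowerSeries.coeff_mul]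

/-- The congruence satisfied by all diamond translates of `f E`. -/
theorem modRed_qCoeff_timesE [NeZero l] (hl : l.Prime) {ε : DirichletCharacter ℂ N}
    {f : CuspForm (Gamma1 N) 1} (hf : IsEigenOne N ε f) {E : ModularForm (Gamma1 l) 1}
    {A : ValuationSubring Qb} (hA : A.LiesOverPrime l)
    (hE : ∀ g ∈ Gamma0 l, ∀ n : ℕ,
      ∃ a : A, iota (a : Qb) = qCoeff ((⇑E) ∣[(1 : ℤ)] g) n ∧
        IsLocalRing.residue A a * ((g.1 1 1 : ℤ) : IsLocalRing.ResidueField A) =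
          if n = 0 then 1 else 0)
    {fb : ℕ → IsLocalRing.ResidueField A} (hfb : ∀ n, ModRed A (qCoeff f n) (fb n))
    (g : Gamma0 (N * l)) {c : IsLocalRing.ResidueField A}
    (hc : ModRed A (ε ((((g : SL(2, ℤ)).1 1 1 : ℤ) : ZMod N))) c) (n : ℕ) :
    ModRed A (qCoeff (⇑(timesE f E) ∣[(2 : ℤ)] (g : SL(2, ℤ))) n)
      (c * ((((g : SL(2, ℤ)).1 1 1 : ℤ) : IsLocalRing.ResidueField A))⁻¹ * fb n) := by
  have hgN : (g : SL(2, ℤ)) ∈ Gamma0 N := gamma0_le_of_dvd (dvd_mul_right N l) g.2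
  have hgl : (g : SL(2, ℤ)) ∈ Gamma0 l := gamma0_le_of_dvd (dvd_mul_left l N) g.2
  set d : ℤ := (g : SL(2, ℤ)).1 1 1 with hd
  have hfg : ⇑f ∣[(1 : ℤ)] (g : SL(2, ℤ)) = ε ((d : ℤ) : ZMod N) • ⇑f :=
    hf.slash_eq ⟨g, hgN⟩
  have hfn : ⇑f ∣[(1 : ℤ)] (g : SL(2, ℤ)) ∈ NiceQ := slash_gamma0_mem_nice f ⟨g, hgN⟩
  have hEn : ⇑E ∣[(1 : ℤ)] (g : SL(2, ℤ)) ∈ NiceQ := modular_slash_mem_nice E ⟨g, hgl⟩
  have e : ⇑(timesE f E) ∣[(2 : ℤ)] (g : SL(2, ℤ)) =
      (⇑f ∣[(1 : ℤ)] (g : SL(2, ℤ))) * (⇑E ∣[(1 : ℤ)] (g : SL(2, ℤ))) := by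
    show (⇑f * ⇑E) ∣[(2 : ℤ)] (g : SL(2, ℤ)) = _
    rw [show (2 : ℤ) = 1 + 1 from rfl, ModularForm.mul_slash_SL2]
  haveI : CharP (IsLocalRing.ResidueField A) l := Galois.charP_residueField hl hA
  have hdk : (d : IsLocalRing.ResidueField A) ≠ 0 := by
    intro h
    have hdl : (l : ℤ) ∣ d := (CharP.intCast_eq_zero_iff _ l d).mp h
    have hcl : (l : ℤ) ∣ (g : SL(2, ℤ)).1 1 0 := FLTA.Periods.dvd_of_mem_Gamma0 hgl
    have hdet := (g : SL(2, ℤ)).2
    rw [Matrix.det_fin_two] at hdet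
    have h1 : (l : ℤ) ∣ 1 := hdet ▸ dvd_sub (dvd_mul_of_dvd_right hdl _) (dvd_mul_of_dvd_right hcl _)
    exact hl.one_lt.ne' (Nat.dvd_one.mp (by exact_mod_cast h1))
  rw [e, qCoeff_mul_nice hfn hEn]
  have hterm : ∀ x ∈ Finset.HasAntidiagonal.antidiagonal n,
      ModRed A (qCoeff (⇑f ∣[(1 : ℤ)] (g : SL(2, ℤ))) x.1 * qCoeff (⇑E ∣[(1 : ℤ)] (g : SL(2, ℤ))) x.2)
        (if x.2 = 0 then c * (d : IsLocalRing.ResidueField A)⁻¹ * fb x.1 else 0) := by
    intro x _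
    obtain ⟨a, ha, hres⟩ := hE g hgl x.2
    have hEx : ModRed A (qCoeff (⇑E ∣[(1 : ℤ)] (g : SL(2, ℤ))) x.2)
        (if x.2 = 0 then (d : IsLocalRing.ResidueField A)⁻¹ else 0) := by
      refine ⟨a, ha, ?_⟩
      split_ifs with hx
      · rw [if_pos hx] at hres
        exact eq_inv_of_mul_eq_one_left hres
      · rw [if_neg hx] at hres
        exact (mul_eq_zero.mp hres).resolve_right hdk
    rw [hfg, qCoeff_smul_nice (cusp_mem_nice f)]
    have hmain := (hc.mul (hfb x.1)).mul hEx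
    convert hmain using 1
    split_ifs <;> ring
  have hsum := ModRed.sum _ hterm
  convert hsum using 1
  rw [Finset.sum_eq_single (n, 0)]
  · simp
  · intro x hx hne
    rw [if_neg]
    intro h0
    rw [Finset.HasAntidiagonal.mem_antidiagonal] at hx
    exact hne (Prod.ext (by simpa [h0] using hx) h0)
  · intro h; exact absurd (by simp) h

end FLTA.DeligneSerre
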