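import Fermat.Agent.DeligneSerre.Rep.Galois
import Fermat.Agent.DeligneSerre.Eigen.TimesE

/-!
# Weight one cusp forms on `Γ₁(N)` through level `4 N` functions

A cusp form of weight one is a level `4 N` function times `℘'(v) / (℘(v) - ℘(w))`. Hence it has
Galois conjugates, and linear projections to the algebraic numbers of its coefficients are again
coefficients of cusp forms, with bounded denominators.
-/

set_option autoImplicit false

noncomputable section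

open UpperHalfPlane hiding I
open CongruenceSubgroup ModularFormClass Matrix.SpecialLinearGroup
open scoped MatrixGroups ModularForm Manifold

namespace FLTA.DeligneSerre

open FLTA.Bridge (Hol GrowthInfty HolInfty expansion)
open ModularCurve (coeffMap)

local notation "Qb" => AlgebraicClosure ℚ
local notation "Γℚ" => (Qb ≃ₐ[ℚ] Qb)

theorem cexp_one_of_mem {M : ℕ} [NeZero M] {X : ℍ → ℂ} (h : X ∈ HolInfty M) :
    cexp M X 1 = expansion M ⟨X, h⟩ := by
  have e : (fun τ : ℍ => X ((1 : SL(2, ℤ)) • τ)) = X := funext fun τ => by rw [one_smul]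
  have h1 : (fun τ : ℍ => X ((1 : SL(2, ℤ)) • τ)) ∈ HolInfty M := e.symm ▸ h
  rw [cexp_of_mem h1]
  exact congrArg _ (Subtype.ext e)

variable {N : ℕ} [NeZero N] {u : ℕ}

/-- The weight one unit of level `4 N`, translated by `g`. -/
def unitU (N u : ℕ) (g : SL(2, ℤ)) : ℍ → ℂ :=
  torU (4 * N) (vecAct ![0, (u : ℤ)] g) (vecAct ![1, 0] g)

theorem unitU_vecs (hu : u.Coprime (4 * N)) :
    VecNondeg (4 * N) ![0, (u : ℤ)] ∧ VecNondeg (4 * N) (2 • ![0, (u : ℤ)]) ∧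
      VecNondeg (4 * N) ![1, 0] ∧ ¬ VecEq (4 * N) ![0, (u : ℤ)] ![1, 0] := by
  have hN : 0 < N := NeZero.pos N
  have hodd : Nat.Coprime u 2 := Nat.Coprime.coprime_dvd_right ⟨2 * N, by ring⟩ hu
  have hnd : ¬ (4 * N : ℕ) ∣ 2 * u := fun h => by
    have h4 : 4 ∣ 2 * u := dvd_trans (dvd_mul_right 4 N) h
    have h2 : 2 ∣ u := by omega
    have := Nat.Coprime.eq_one_of_dvd hodd.symm h2
    omega
  have h1 : ¬ ((4 * N : ℕ) : ℤ) ∣ 1 := fun h => by
    have := Nat.dvd_one.mp (by exact_mod_cast h : (4 * N : ℕ) ∣ 1)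
    omega
  refine ⟨fun h => hnd (dvd_mul_of_dvd_right (Int.natCast_dvd_natCast.mp (by simpa using h 1)) 2),
    fun h => ?_, fun h => h1 (by simpa using h 0), ?_⟩
  · have := h 1
    simp only [Pi.smul_apply, Matrix.cons_val_one, Matrix.cons_val_fin_one, nsmul_eq_mul] at this
    exact hnd (Int.natCast_dvd_natCast.mp (by exact_mod_cast this))
  · rintro (h | h)
    · exact h1 (by simpa using h 0)
    · exact h1 (by simpa using h 0)

theorem unitU_act (hu : u.Coprime (4 * N)) (g : SL(2, ℤ)) :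
    VecNondeg (4 * N) (vecAct ![0, (u : ℤ)] g) ∧
      VecNondeg (4 * N) (2 • vecAct ![0, (u : ℤ)] g) ∧
      VecNondeg (4 * N) (vecAct ![1, 0] g) ∧
      ¬ VecEq (4 * N) (vecAct ![0, (u : ℤ)] g) (vecAct ![1, 0] g) := by
  obtain ⟨h1, h2, h3, h4⟩ := unitU_vecs hu
  refine ⟨h1.act g, ?_, h3.act g, not_vecEq_act h4 g⟩
  rw [← vecAct_double]
  exact h2.act g

theorem unitU_ne_zero (hu : u.Coprime (4 * N)) (g : SL(2, ℤ)) (τ : ℍ) : unitU N u g τ ≠ 0 := by
  obtain ⟨h1, h2, h3, h4⟩ := unitU_act hu g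
  exact torU_ne_zero h1 h2 h3 h4 τ

theorem unitU_mem (hu : u.Coprime (4 * N)) (g : SL(2, ℤ)) : unitU N u g ∈ HolInfty (4 * N) := by
  obtain ⟨h1, -, h3, h4⟩ := unitU_act hu g
  exact (torU_holInfty h1 h3 h4).2

theorem unitU_inv_mem (hu : u.Coprime (4 * N)) (g : SL(2, ℤ)) :
    (fun τ : ℍ => (unitU N u g τ)⁻¹) ∈ HolInfty (4 * N) := by
  obtain ⟨h1, h2, h3, h4⟩ := unitU_act hu g
  have hm := mul_mem (diff_mem_holInfty h1 h3)
    ((leadSeries_torY h1 h2).inv_mem_holInfty (torY_ne_zero h1 h2))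
  convert hm using 1
  funext τ
  simp only [Pi.mul_apply, unitU, torU]
  rw [inv_div, div_eq_mul_inv]

theorem cexp_unitU_ne_zero (hu : u.Coprime (4 * N)) (g : SL(2, ℤ)) :
    cexp (4 * N) (unitU N u g) 1 ≠ 0 := by
  obtain ⟨h1, h2, h3, h4⟩ := unitU_act hu g
  exact (torU_unitExp h1 h2 h3 h4).ne_zero

omit [NeZero N] in
theorem unitU_slash [NeZero (4 * N)] (u : ℕ) (g : SL(2, ℤ)) :
    unitU N u 1 ∣[(1 : ℤ)] g = unitU N u g := by
  rw [unitU, unitU, torU_slash, vecAct_one, vecAct_one]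

theorem unitU_gamma (u : ℕ) {γ : SL(2, ℤ)} (hγ : γ ∈ Gamma (4 * N)) :
    unitU N u γ = unitU N u 1 := by
  rw [unitU, unitU, vecAct_one, vecAct_one]
  exact torU_congr (dvd_vecAct_gamma hγ _) (Or.inl (dvd_vecAct_gamma hγ _))

theorem gamma4_le_gamma1 : Gamma (4 * N) ≤ Gamma1 N := by
  intro g hg
  obtain ⟨a, -, c, d⟩ := Gamma_mem.mp hg
  exact gamma1_le_of_dvd (dvd_mul_left N 4) ((Gamma1_mem _ g).mpr ⟨a, d, c⟩)

/-- The expansion at `4 N` of `H ∣[1] g`. -/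
def wexp (N : ℕ) (H : ℍ → ℂ) (g : SL(2, ℤ)) : LaurentSeries ℂ := cexp (4 * N) (H ∣[(1 : ℤ)] g) 1

theorem mul_unitU_slash (F : ℍ → ℂ) (u : ℕ) (g : SL(2, ℤ)) :
    (F * unitU N u 1) ∣[(1 : ℤ)] g = (fun τ : ℍ => F (g • τ)) * unitU N u g := by
  funext τ
  rw [← unitU_slash u g, Pi.mul_apply, ModularForm.SL_slash_apply, ModularForm.SL_slash_apply,
    Pi.mul_apply, mul_assoc]

theorem mul_unitU_mem (hu : u.Coprime (4 * N)) {F : ℍ → ℂ} (hF : F ∈ Fn (4 * N)) (g : SL(2, ℤ)) :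
    (F * unitU N u 1) ∣[(1 : ℤ)] g ∈ HolInfty (4 * N) := by
  rw [mul_unitU_slash]
  exact mul_mem (fn_le_perFn hF g) (unitU_mem hu g)

theorem wexp_mul_unitU (hu : u.Coprime (4 * N)) {F : ℍ → ℂ} (hF : F ∈ Fn (4 * N))
    (g : SL(2, ℤ)) :
    wexp N (F * unitU N u 1) g = cexp (4 * N) F g * cexp (4 * N) (unitU N u g) 1 := by
  rw [wexp, cexp_one_of_mem (mul_unitU_mem hu hF g), cexp_one_of_mem (unitU_mem hu g),
    cexp_of_mem (fn_le_perFn hF g), ← map_mul]
  exact congrArg _ (Subtype.ext (mul_unitU_slash F u g))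

theorem cusp_slash_mem_holInfty (h : CuspForm (Gamma1 N) 1) (g : SL(2, ℤ)) :
    ⇑h ∣[(1 : ℤ)] g ∈ HolInfty (4 * N) := by
  refine ⟨FLTA.Bridge.mem_hol_iff.mpr ((CuspFormClass.holo h).slash 1 _),
    periodic_of_smul (N := 4 * N) fun τ => ?_, ⟨0, ?_⟩⟩
  · have hT : g * ModularGroup.T ^ (4 * N) * g⁻¹ ∈ Gamma1 N :=
      gamma4_le_gamma1 ((Gamma_normal _).conj_mem _ (T_pow_mem_Gamma _) g)
    have e : (⇑h ∣[(1 : ℤ)] g) ∣[(1 : ℤ)] (ModularGroup.T ^ (4 * N) : SL(2, ℤ)) =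
        ⇑h ∣[(1 : ℤ)] g := by
      rw [← SlashAction.slash_mul, show g * ModularGroup.T ^ (4 * N) =
        g * ModularGroup.T ^ (4 * N) * g⁻¹ * g by group, SlashAction.slash_mul,
        slash_eq_of_mem_gamma1 h hT]
    have h2 := congrFun e τ
    rw [ModularForm.SL_slash_apply] at h2
    have hd : denom ((ModularGroup.T ^ (4 * N) : SL(2, ℤ)) : GL (Fin 2) ℝ) τ = 1 := by
      rw [ModularGroup.denom_apply, ← zpow_natCast, ModularGroup.coe_T_zpow]; simp
    rwa [hd, one_zpow, mul_one] at h2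
  · simp only [pow_zero, one_mul]
    exact (cusp_slash_isZero h g).boundedAtFilter

theorem cusp_mem_holInfty (h : CuspForm (Gamma1 N) 1) : ⇑h ∈ HolInfty (4 * N) := by
  simpa using cusp_slash_mem_holInfty h 1

theorem nice_mem_holInfty_one {h : ℍ → ℂ} (hh : h ∈ NiceQ) : h ∈ HolInfty 1 :=
  ⟨FLTA.Bridge.mem_hol_iff.mpr hh.2.1, by simpa using hh.1, ⟨0, by simpa using hh.2.2⟩⟩

theorem qCoeff_eq_wexp (h : CuspForm (Gamma1 N) 1) (n : ℕ) :
    qCoeff h n = (wexp N ⇑h 1).coeff (((4 * N : ℕ) : ℤ) * n) := by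
  rw [wexp, SlashAction.slash_one, cexp_one_of_mem (cusp_mem_holInfty h)]
  exact qCoeff_eq_coeff_expansion (nice_mem_holInfty_one (cusp_mem_nice h)) _
    (cusp_mem_nice h).2.2 n

theorem wexp_coeff_nonpos (h : CuspForm (Gamma1 N) 1) (g : SL(2, ℤ)) {k : ℤ} (hk : k ≤ 0) :
    (wexp N ⇑h g).coeff k = 0 := by
  have hm := cusp_slash_mem_holInfty h g
  rw [wexp, cexp_one_of_mem hm]
  rcases (FLTA.Bridge.isZeroAtImInfty_iff_order _ ⟨_, hm⟩).mp (cusp_slash_isZero h g) with h0 | ho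
  · rw [h0, map_zero]; rfl
  · exact HahnSeries.coeff_eq_zero_of_lt_order (lt_of_le_of_lt hk ho)

theorem wexp_gamma1 (h : CuspForm (Gamma1 N) 1) {γ : SL(2, ℤ)} (hγ : γ ∈ Gamma1 N) :
    wexp N ⇑h γ = wexp N ⇑h 1 := by
  rw [wexp, wexp, slash_eq_of_mem_gamma1 h hγ, SlashAction.slash_one]

/-- The level `4 N` function attached to a cusp form. -/
def quotFn (h : CuspForm (Gamma1 N) 1) : ℍ → ℂ := fun τ => h τ * (unitU N 1 1 τ)⁻¹

theorem quotFn_mul (h : CuspForm (Gamma1 N) 1) : quotFn h * unitU N 1 1 = ⇑h := by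
  funext τ
  rw [Pi.mul_apply, quotFn, inv_mul_cancel_right₀ (unitU_ne_zero (Nat.coprime_one_left _) 1 τ)]

theorem quotFn_comp (h : CuspForm (Gamma1 N) 1) (g : SL(2, ℤ)) :
    (fun τ : ℍ => quotFn h (g • τ)) =
      (⇑h ∣[(1 : ℤ)] g) * fun τ : ℍ => (unitU N 1 g τ)⁻¹ := by
  funext τ
  conv_rhs => rw [← quotFn_mul h]
  rw [mul_unitU_slash, Pi.mul_apply, Pi.mul_apply,
    mul_inv_cancel_right₀ (unitU_ne_zero (Nat.coprime_one_left _) g τ)]

theorem quotFn_mem (h : CuspForm (Gamma1 N) 1) : quotFn h ∈ Fn (4 * N) := by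
  have hm : ∀ g : SL(2, ℤ), (fun τ : ℍ => quotFn h (g • τ)) ∈ HolInfty (4 * N) := fun g => by
    rw [quotFn_comp]
    exact mul_mem (cusp_slash_mem_holInfty h g) (unitU_inv_mem (Nat.coprime_one_left _) g)
  refine ⟨by simpa using (hm 1).1, fun γ hγ τ => ?_, fun g => (hm g).2.2⟩
  have := congrFun (quotFn_comp h γ) τ
  rw [slash_eq_of_mem_gamma1 h (gamma4_le_gamma1 hγ), unitU_gamma _ hγ] at this
  exact this

theorem wexp_eq (h : CuspForm (Gamma1 N) 1) (g : SL(2, ℤ)) :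
    wexp N ⇑h g = cexp (4 * N) (quotFn h) g * cexp (4 * N) (unitU N 1 g) 1 := by
  rw [← wexp_mul_unitU (Nat.coprime_one_left _) (quotFn_mem h), quotFn_mul]

/-- A function whose expansions are obtained coefficientwise from those of a cusp form is a cusp
form. -/
theorem exists_form_of_map (h : CuspForm (Gamma1 N) 1) (H : ℍ → ℂ) (μ : ℂ → ℂ) (hμ : μ 0 = 0)
    (hm : ∀ g : SL(2, ℤ), H ∣[(1 : ℤ)] g ∈ HolInfty (4 * N))
    (hc : ∀ g' : SL(2, ℤ), ∃ g : SL(2, ℤ), (g' ∈ Gamma1 N → g ∈ Gamma1 N) ∧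
      ∀ k, (wexp N H g').coeff k = μ ((wexp N ⇑h g).coeff k)) :
    ∃ h' : CuspForm (Gamma1 N) 1, ⇑h' = H ∧ ∀ n, qCoeff h' n = μ (qCoeff h n) := by
  have h1 : ∀ γ ∈ Gamma1 N, ∀ k, (wexp N H γ).coeff k = μ ((wexp N ⇑h 1).coeff k) :=
    fun γ hγ k => by
      obtain ⟨g, hg, hgk⟩ := hc γ
      rw [hgk, wexp_gamma1 h (hg hγ)]
  have hinv : ∀ γ ∈ Gamma1 N, H ∣[(1 : ℤ)] γ = H := fun γ hγ => by
    have e : wexp N H γ = wexp N H 1 :=
      HahnSeries.ext (funext fun k => (h1 γ hγ k).trans (h1 1 (one_mem _) k).symm)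
    rw [wexp, wexp, cexp_one_of_mem (hm γ), cexp_one_of_mem (hm 1)] at e
    simpa using congrArg Subtype.val (FLTA.Bridge.expansion_injective _ e)
  have hz : ∀ g : SL(2, ℤ), IsZeroAtImInfty (H ∣[(1 : ℤ)] g) := fun g => by
    refine (FLTA.Bridge.isZeroAtImInfty_iff_order _ ⟨_, hm g⟩).mpr ?_
    by_cases h0 : (⟨_, hm g⟩ : HolInfty (4 * N)) = 0
    · exact Or.inl h0
    refine Or.inr (lt_of_not_ge fun hle => ?_)
    have hne : expansion (4 * N) ⟨_, hm g⟩ ≠ 0 := fun e =>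
      h0 (FLTA.Bridge.expansion_injective _ (by rw [e, map_zero]))
    refine hne (HahnSeries.coeff_order_eq_zero.mp ?_)
    obtain ⟨g₀, -, hk⟩ := hc g
    rw [← cexp_one_of_mem (hm g)] at hle ⊢
    exact (hk _).trans (by rw [wexp_coeff_nonpos h g₀ hle, hμ])
  let h' : CuspForm (Gamma1 N) 1 :=
    { toFun := H
      slash_action_eq' := by
        rintro γ ⟨g, hg, rfl⟩
        exact hinv g hg
      holo' := FLTA.Bridge.mem_hol_iff.mp (by simpa using (hm 1).1)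
      zero_at_cusps' := fun {c} hc' => by
        rw [OnePoint.isZeroAt_iff_forall_SL2Z
          ((Subgroup.IsArithmetic.isCusp_iff_isCusp_SL2Z _).mp hc')]
        exact fun g _ => hz g }
  refine ⟨h', rfl, fun n => ?_⟩
  rw [qCoeff_eq_wexp h', qCoeff_eq_wexp h]
  exact h1 1 (one_mem _) _

theorem vecAct_galConj {g g' : SL(2, ℤ)} (hg : GalConj (4 * N) u g g') :
    unitU N u g' =
      torU (4 * N) ![vecAct ![0, ((1 : ℕ) : ℤ)] g 0, u * vecAct ![0, ((1 : ℕ) : ℤ)] g 1]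
        ![vecAct ![1, 0] g 0, u * vecAct ![1, 0] g 1] := by
  obtain ⟨a, b, c, d⟩ := hg
  refine torU_congr ?_ (Or.inl ?_)
  all_goals
    intro i
    refine (ZMod.intCast_zmod_eq_zero_iff_dvd _ _).mp ?_
    fin_cases i <;>
      simp [vecAct, Matrix.vecMul, dotProduct, Fin.sum_univ_two, a, b, ← c, d]

/-- Cusp forms of weight one have conjugates under all automorphisms of `ℂ`. -/
theorem exists_conj_form (σ : ℂ ≃+* ℂ) (h : CuspForm (Gamma1 N) 1) :
    ∃ h' : CuspForm (Gamma1 N) 1, ∀ n, qCoeff h' n = σ (qCoeff h n) := by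
  obtain ⟨u, hu, hζ⟩ := exists_cyclo σ (4 * N)
  have hσ : σ (Complex.exp (2 * Real.pi * Complex.I / (4 * N : ℕ))) =
      Complex.exp (2 * Real.pi * Complex.I / (4 * N : ℕ)) ^ u := hζ
  obtain ⟨F', hF', hFe, -⟩ := exists_galois_conj (N := 4 * N) (M := 2) (Or.inl rfl)
    ⟨2 * N, by ring⟩ σ u hσ (quotFn_mem h)
  obtain ⟨h', -, hh'⟩ := exists_form_of_map h (F' * unitU N u 1) σ (map_zero σ)
    (mul_unitU_mem hu hF') fun g' => by
      obtain ⟨g, hg⟩ := GalConj.exists_left hu g'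
      refine ⟨g, (GalConj.of_dvd (dvd_mul_left N 4) hg).mem_gamma1, fun k => ?_⟩
      have e1 : cexp (4 * N) F' g' = coeffMap (σ : ℂ →+* ℂ) (cexp (4 * N) (quotFn h) g) :=
        HahnSeries.ext (funext fun m => (hFe g g' hg m).trans
          (by rw [ModularCurve.coeffMap_coeff]; rfl))
      obtain ⟨h1, -, h3, h4⟩ := unitU_act (N := N) (Nat.coprime_one_left _) g
      have e2 : cexp (4 * N) (unitU N u g') 1 =
          coeffMap (σ : ℂ →+* ℂ) (cexp (4 * N) (unitU N 1 g) 1) :=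
        HahnSeries.ext (funext fun m => by
          rw [vecAct_galConj hg, ModularCurve.coeffMap_coeff]
          exact (torU_galois σ u hσ h1 h3 h4 m).symm)
      rw [wexp_mul_unitU hu hF', e1, e2, ← map_mul, ← wexp_eq h g, ModularCurve.coeffMap_coeff]
      rfl
  exact ⟨h', hh'⟩

theorem cexp_unitU_mem_algSeries (g : SL(2, ℤ)) :
    cexp (4 * N) (unitU N 1 g) 1 ∈ algSeries := by
  obtain ⟨h1, h2, h3, h4⟩ := unitU_act (N := N) (Nat.coprime_one_left _) g
  obtain ⟨c, -, hc, -⟩ := torU_unitSeries h1 h2 h3 h4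
  refine mem_algSeries_iff.mpr fun k => ?_
  obtain ⟨a, -, ha⟩ := hc k
  exact ⟨c * a, ha⟩

/-- Bounded denominators. -/
theorem exists_denom_form {h : CuspForm (Gamma1 N) 1} (ha : IsAlgFn (4 * N) (quotFn h)) :
    ∃ D : ℕ, D ≠ 0 ∧ ∀ n, ∃ a : Qb, IsIntegral ℤ a ∧ iota a = (D : ℂ) * qCoeff h n := by
  obtain ⟨D, hD, hDa⟩ := exists_denom (N := 4 * N) (M := 2) (Or.inl rfl) ⟨2 * N, by ring⟩
    (quotFn_mem h) ha
  obtain ⟨h1, h2, h3, h4⟩ := unitU_act (N := N) (Nat.coprime_one_left _) 1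
  obtain ⟨c, -, hc, -⟩ := torU_unitSeries h1 h2 h3 h4
  obtain ⟨m, hm0, hmc⟩ := ((IsFractionRing.isAlgebraic_iff ℤ ℚ Qb).mpr
    (Algebra.IsAlgebraic.isAlgebraic c)).exists_integral_multiple
  refine ⟨D * m.natAbs, mul_ne_zero hD (Int.natAbs_ne_zero.mpr hm0), fun n => ?_⟩
  have hF : HahnSeries.C (D : ℂ) * cexp (4 * N) (quotFn h) 1 ∈ (coeffMap intC).range :=
    (mem_range_coeffMap_iff intC_injective).2 fun k => by
      obtain ⟨a, hai, ha'⟩ := hDa 1 k
      exact ⟨⟨a, hai⟩, by rw [coeff_C_mul]; exact ha'⟩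
  have hU : HahnSeries.C ((m.natAbs : ℕ) : ℂ) * cexp (4 * N) (unitU N 1 1) 1 ∈
      (coeffMap intC).range :=
    (mem_range_coeffMap_iff intC_injective).2 fun k => by
      obtain ⟨a, hai, ha'⟩ := hc k
      have hmi : IsIntegral ℤ ((m.natAbs : Qb) * c) := by
        rw [zsmul_eq_mul] at hmc
        rcases Int.natAbs_eq m with e | e <;> rw [e] at hmc <;>
          simp only [Int.cast_neg, Int.cast_natCast, neg_mul] at hmc
        · exact hmc
        · simpa using hmc.neg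
      refine ⟨⟨(m.natAbs : Qb) * c * a, hmi.mul hai⟩, ?_⟩
      rw [coeff_C_mul]
      show iota ((m.natAbs : Qb) * c * a) = _
      rw [mul_assoc, map_mul, map_natCast, ha']
      rfl
  obtain ⟨a, ha'⟩ :=
    (mem_range_coeffMap_iff intC_injective).1 (mul_mem hF hU) (((4 * N : ℕ) : ℤ) * n)
  refine ⟨(a : Qb), a.2, ?_⟩
  rw [mul_mul_mul_comm, ← map_mul HahnSeries.C, ← wexp_eq, coeff_C_mul, ← qCoeff_eq_wexp] at ha'
  rw [Nat.cast_mul]
  exact ha'

/-- The coefficients generate a number field. -/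
theorem exists_field_form {h : CuspForm (Gamma1 N) 1} (ha : IsAlgFn (4 * N) (quotFn h)) :
    ∃ K : IntermediateField ℚ Qb, FiniteDimensional ℚ K ∧
      ∀ n (a : Qb), iota a = qCoeff h n → a ∈ K := by
  obtain ⟨K₀, hK₀, hKa⟩ := exists_finset_fix (N := 4 * N) (M := 2) (Or.inl rfl) ⟨2 * N, by ring⟩
    (quotFn_mem h) ha
  obtain ⟨z, hz⟩ := exists_iota_eq_zetaC (4 * N)
  haveI := hK₀
  haveI : FiniteDimensional ℚ (IntermediateField.adjoin ℚ ({z} : Set Qb)) :=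
    IntermediateField.adjoin.finiteDimensional (Algebra.IsIntegral.isIntegral z)
  refine ⟨K₀ ⊔ IntermediateField.adjoin ℚ {z}, IntermediateField.finiteDimensional_sup _ _,
    fun n a hna => ?_⟩
  rw [← InfiniteGalois.fixedField_fixingSubgroup (K₀ ⊔ IntermediateField.adjoin ℚ {z})]
  intro ⟨σ, hσ⟩
  have hfix : ∀ x ∈ (K₀ ⊔ IntermediateField.adjoin ℚ {z} : IntermediateField ℚ Qb), σ x = x :=
    (IntermediateField.mem_fixingSubgroup_iff _ σ).mp hσ
  set s := liftC σ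
  have hs1 : s (Complex.exp (2 * Real.pi * Complex.I / (4 * N : ℕ))) =
      Complex.exp (2 * Real.pi * Complex.I / (4 * N : ℕ)) ^ 1 := by
    show s (zetaC (4 * N)) = zetaC (4 * N) ^ 1
    rw [pow_one, ← hz, liftC_iota, hfix z (le_sup_right (a := K₀)
      (IntermediateField.mem_adjoin_simple_self ℚ z))]
  have e1 : coeffMap (s : ℂ →+* ℂ) (cexp (4 * N) (quotFn h) 1) =
      cexp (4 * N) (quotFn h) 1 := HahnSeries.ext (funext fun k => by
    obtain ⟨b, hb, hb'⟩ := hKa 1 k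
    rw [ModularCurve.coeffMap_coeff, ← hb']
    show s (iota b) = _
    rw [liftC_iota, hfix b (le_sup_left (b := IntermediateField.adjoin ℚ {z}) hb)])
  obtain ⟨h1, -, h3, h4⟩ := unitU_vecs (N := N) (Nat.coprime_one_left _)
  have e2 : coeffMap (s : ℂ →+* ℂ) (cexp (4 * N) (unitU N 1 1) 1) =
      cexp (4 * N) (unitU N 1 1) 1 := HahnSeries.ext (funext fun k => by
    rw [ModularCurve.coeffMap_coeff, unitU, vecAct_one, vecAct_one]
    refine (torU_galois s 1 hs1 h1 h3 h4 k).trans ?_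
    simp)
  show σ a = a
  refine iota.injective ?_
  rw [← liftC_iota, hna, qCoeff_eq_wexp, wexp_eq]
  have e := congrArg (fun S : LaurentSeries ℂ => S.coeff (((4 * N : ℕ) : ℤ) * n))
    ((map_mul (coeffMap (s : ℂ →+* ℂ)) _ _).trans (congrArg₂ (· * ·) e1 e2))
  exact (ModularCurve.coeffMap_coeff _ _ _).symm.trans e

/-- Applying a `ℚ̄`-linear functional to the coefficients gives an algebraic cusp form. -/
theorem exists_phi_form (h : CuspForm (Gamma1 N) 1) (φ : ℂ →+ Qb)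
    (hφ : ∀ (x : Qb) (c : ℂ), φ (iota x * c) = x * φ c) :
    ∃ h' : CuspForm (Gamma1 N) 1, (∀ n, qCoeff h' n = iota (φ (qCoeff h n))) ∧
      IsAlgFn (4 * N) (quotFn h') := by
  obtain ⟨m, c, G, hG⟩ := Submodule.mem_span_set'.mp
    (fn_le_span_alg (N := 4 * N) (M := 2) (Or.inl rfl) ⟨2 * N, by ring⟩ (quotFn_mem h))
  have hGF : ∀ i, (G i : ℍ → ℂ) ∈ Fn (4 * N) := fun i => (G i).2.1
  set F' : ℍ → ℂ := ∑ i, iota (φ (c i)) • (G i : ℍ → ℂ) with hF'def
  have hF' : F' ∈ Fn (4 * N) := sum_mem fun i _ => Subalgebra.smul_mem _ (hGF i) _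
  have hF'a : F' ∈ AlgFn (4 * N) :=
    sum_mem fun i _ => smul_mem_algFn ⟨fn_le_perFn (hGF i), (G i).2.2⟩
  have hu1 : (1 : ℕ).Coprime (4 * N) := Nat.coprime_one_left _
  have hlin : ∀ (d : Fin m → ℂ) (g : SL(2, ℤ)) (k : ℤ),
      (wexp N ((∑ i, d i • (G i : ℍ → ℂ)) * unitU N 1 1) g).coeff k =
        ∑ i, d i * (wexp N ((G i : ℍ → ℂ) * unitU N 1 1) g).coeff k := by
    intro d g k
    have hsum : (∑ i, d i • (G i : ℍ → ℂ)) ∈ Fn (4 * N) :=
      sum_mem fun i _ => Subalgebra.smul_mem _ (hGF i) _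
    have e : cexp (4 * N) (∑ i, d i • (G i : ℍ → ℂ)) g =
        ∑ i, HahnSeries.single 0 (d i) * cexp (4 * N) (G i : ℍ → ℂ) g := by
      rw [cexp_eq (fn_le_perFn hsum), show (⟨∑ i, d i • (G i : ℍ → ℂ), fn_le_perFn hsum⟩ :
        PerFn (4 * N)) = ∑ i, (⟨d i • (G i : ℍ → ℂ),
          Subalgebra.smul_mem _ (fn_le_perFn (hGF i)) _⟩ : PerFn (4 * N)) from
          Subtype.ext (by simp), map_sum]
      refine Finset.sum_congr rfl fun i _ => ?_
      rw [← cexp_eq, cexp_smul_single (fn_le_perFn (hGF i))]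
    rw [wexp_mul_unitU hu1 hsum, e, Finset.sum_mul, HahnSeries.coeff_sum]
    refine Finset.sum_congr rfl fun i _ => ?_
    rw [wexp_mul_unitU hu1 (hGF i), mul_assoc, HahnSeries.coeff_single_zero_mul]
  have halg : ∀ i g k, ∃ x : Qb,
      iota x = (wexp N ((G i : ℍ → ℂ) * unitU N 1 1) g).coeff k := by
    intro i g
    rw [wexp_mul_unitU hu1 (hGF i)]
    exact mem_algSeries_iff.mp
      (mul_mem (isAlgFn_iff.mp (G i).2.2 g) (cexp_unitU_mem_algSeries g))
  obtain ⟨h', hh', hq⟩ := exists_form_of_map h (F' * unitU N 1 1) (fun z => iota (φ z))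
    (by simp) (mul_unitU_mem hu1 hF') fun g => ⟨g, id, fun k => by
      choose x hx using fun i => halg i g k
      rw [hF'def, hlin, ← quotFn_mul h, ← hG, hlin, map_sum, map_sum]
      refine Finset.sum_congr rfl fun i _ => ?_
      rw [← hx, mul_comm (c i), hφ, map_mul, mul_comm]⟩
  refine ⟨h', hq, ?_⟩
  have e : quotFn h' = F' := funext fun τ => by
    rw [quotFn, hh', Pi.mul_apply, mul_inv_cancel_right₀ (unitU_ne_zero hu1 1 τ)]
  rw [e]
  exact hF'a.2

local instance : (Gamma (4 * N)).Normal := Gamma_normal (4 * N)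

local instance : Fintype (SL(2, ℤ) ⧸ Gamma (4 * N)) := Subgroup.fintypeQuotientOfFiniteIndex

/-- A weight one cusp form is determined by finitely many coefficients. -/
theorem finiteDimensional_cuspOne : FiniteDimensional ℂ (CuspForm (Gamma1 N) 1) := by
  classical
  have hu1 : (1 : ℕ).Coprime (4 * N) := Nat.coprime_one_left _
  set o : SL(2, ℤ) → ℤ := fun g => (cexp (4 * N) (unitU N 1 g) 1).order
  set B : ℕ := ∑ q : SL(2, ℤ) ⧸ Gamma (4 * N), (o q.out).natAbs with hB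
  let ex : CuspForm (Gamma1 N) 1 → LaurentSeries ℂ := fun h =>
    expansion (4 * N) ⟨⇑h, cusp_mem_holInfty h⟩
  have hexadd : ∀ a b, ex (a + b) = ex a + ex b := fun a b => by
    show expansion (4 * N) _ = expansion (4 * N) _ + expansion (4 * N) _
    rw [← map_add]
    rfl
  have hexsmul : ∀ (z : ℂ) a, ex (z • a) = HahnSeries.single 0 z * ex a := fun z a => by
    show expansion (4 * N) _ = _ * expansion (4 * N) _
    rw [show HahnSeries.single (0 : ℤ) z = expansion (4 * N) (algebraMap ℂ _ z) by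
      rw [AlgHom.commutes, ModularCurve.algebraMap_laurentSeries_eq_single], ← map_mul]
    exact congrArg _ (Subtype.ext (Algebra.smul_def z (⇑a)))
  let L : CuspForm (Gamma1 N) 1 →ₗ[ℂ] Fin (B + (o 1).natAbs + 1) → ℂ :=
    { toFun := fun h i => (ex h).coeff ((i : ℕ) : ℤ)
      map_add' := fun a b => funext fun i => by
        rw [hexadd, HahnSeries.coeff_add]; rfl
      map_smul' := fun z a => funext fun i => by
        rw [hexsmul, HahnSeries.coeff_single_zero_mul]; rfl }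
  refine FiniteDimensional.of_injective L ((injective_iff_map_eq_zero L).mpr fun h hL => ?_)
  by_contra h0
  have hP := quotFn_mem h
  have hne : quotFn h ≠ 0 := fun e => h0 (DFunLike.ext' (by rw [← quotFn_mul h, e, zero_mul]; rfl))
  have hc : ∀ g, cexp (4 * N) (quotFn h) g ≠ 0 := fun g e =>
    hne ((cexp_eq_zero_iff (fn_le_perFn hP) g).mp e)
  have hord : ∀ g, 0 < (cexp (4 * N) (quotFn h) g).order + o g := fun g => by
    rw [← HahnSeries.order_mul (hc g) (cexp_unitU_ne_zero hu1 g), ← wexp_eq]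
    refine lt_of_not_ge fun hle => ?_
    have hw : wexp N ⇑h g ≠ 0 := wexp_eq h g ▸ mul_ne_zero (hc g) (cexp_unitU_ne_zero hu1 g)
    exact hw (HahnSeries.coeff_order_eq_zero.mp (wexp_coeff_nonpos h g hle))
  have hsum := sum_order_le_zero hP hne
  set q₁ : SL(2, ℤ) ⧸ Gamma (4 * N) := QuotientGroup.mk 1
  rw [← Finset.add_sum_erase _ _ (Finset.mem_univ q₁), ← cexp_out hP 1] at hsum
  have hrest : -(B : ℤ) ≤ ∑ q ∈ Finset.univ.erase q₁, (cexp (4 * N) (quotFn h) q.out).order := by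
    have h1 : ∑ q ∈ Finset.univ.erase q₁, -((o q.out).natAbs : ℤ) ≤
        ∑ q ∈ Finset.univ.erase q₁, (cexp (4 * N) (quotFn h) q.out).order :=
      Finset.sum_le_sum fun q _ => by have := hord q.out; omega
    refine le_trans ?_ h1
    rw [Finset.sum_neg_distrib, neg_le_neg_iff, hB, Nat.cast_sum]
    exact Finset.sum_le_sum_of_subset_of_nonneg (Finset.erase_subset _ _)
      (fun _ _ _ => Int.natCast_nonneg _)
  have hw1 : wexp N ⇑h 1 ≠ 0 := wexp_eq h 1 ▸ mul_ne_zero (hc 1) (cexp_unitU_ne_zero hu1 1)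
  have hk : (wexp N ⇑h 1).order = (cexp (4 * N) (quotFn h) 1).order + o 1 := by
    rw [wexp_eq, HahnSeries.order_mul (hc 1) (cexp_unitU_ne_zero hu1 1)]
  have hpos := hord 1
  obtain ⟨j, hj⟩ : ∃ j : ℕ, (j : ℤ) = (wexp N ⇑h 1).order :=
    ⟨(wexp N ⇑h 1).order.toNat, Int.toNat_of_nonneg (by omega)⟩
  refine hw1 (HahnSeries.coeff_order_eq_zero.mp ?_)
  rw [← hj, wexp, SlashAction.slash_one, cexp_one_of_mem (cusp_mem_holInfty h)]
  exact congrFun hL ⟨j, by omega⟩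

end FLTA.DeligneSerre
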