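import Fermat.Agent.DeligneSerre.Hecke.Defs
import Fermat.Agent.DeligneSerre.Eigen.Defs
import Fermat.Agent.DeligneSerre.Eigen.Char0
import Fermat.Agent.DeligneSerre.Eigen.Congr
import Fermat.Agent.DeligneSerre.Eigen.Forms

/-!
# The character of the Hecke algebra of a weight one eigenform modulo almost every place

From algebraicity, bounded denominators and the congruence with a form of weight two.
-/

set_option autoImplicit false

noncomputable section

open CongruenceSubgroup ModularFormClass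
open scoped MatrixGroups

namespace FLTA.DeligneSerre

local notation "Qb" => AlgebraicClosure ℚ
local notation "Γℚ" => (Qb ≃ₐ[ℚ] Qb)

/-- Roots of unity in `ℂ` are algebraic. -/
theorem exists_iota_of_pow_eq_one {z : ℂ} {n : ℕ} (hn : 0 < n) (h : z ^ n = 1) :
    ∃ x : Qb, iota x = z := by
  haveI : NeZero n := ⟨hn.ne'⟩
  haveI : NeZero (n : Qb) := ⟨Nat.cast_ne_zero.mpr hn.ne'⟩
  obtain ⟨w, hw⟩ := HasEnoughRootsOfUnity.exists_primitiveRoot Qb n
  obtain ⟨i, -, hi⟩ := (hw.map_of_injective iota.injective).eq_pow_of_pow_eq_one h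
  exact ⟨w ^ i, by rw [map_pow, hi]⟩

/-- Characters take algebraic values. -/
theorem exists_char_descent {N : ℕ} [NeZero N] (ε : DirichletCharacter ℂ N) :
    ∃ e : DirichletCharacter Qb N, ∀ d : ZMod N, iota (e d) = ε d := by
  have hex : ∀ d : ZMod N, ∃ x : Qb, iota x = ε d := by
    intro d
    by_cases hd : IsUnit d
    · obtain ⟨v, rfl⟩ := hd
      refine exists_iota_of_pow_eq_one (Fintype.card_pos (α := (ZMod N)ˣ)) ?_
      rw [← map_pow, ← Units.val_pow_eq_pow_val, pow_card_eq_one, Units.val_one, map_one]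
    · exact ⟨0, by rw [map_zero, ε.map_nonunit hd]⟩
  choose x hx using hex
  let e : DirichletCharacter Qb N :=
    { toFun := x
      map_one' := iota.injective (by rw [hx, map_one, map_one])
      map_mul' := fun a b => iota.injective (by rw [hx, map_mul, map_mul, hx, hx])
      map_nonunit' := fun a ha => iota.injective (by
        show iota (x a) = iota 0
        rw [hx, map_zero, ε.map_nonunit ha]) }
  exact ⟨e, hx⟩

theorem isIntegral_char {N : ℕ} [NeZero N] (e : DirichletCharacter Qb N) (d : ZMod N) :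
    IsIntegral ℤ (e d) := by
  by_cases hd : IsUnit d
  · obtain ⟨v, rfl⟩ := hd
    have h1 : e (v : ZMod N) ^ Fintype.card (ZMod N)ˣ = 1 := by
      rw [← map_pow, ← Units.val_pow_eq_pow_val, pow_card_eq_one, Units.val_one, map_one]
    exact IsIntegral.of_pow Fintype.card_pos (h1 ▸ isIntegral_one)
  · rw [e.map_nonunit hd]; exact isIntegral_zero

/-- A projection `ℂ → ℚ̄`. -/
theorem exists_projection :
    ∃ φ : ℂ →+ Qb, (∀ (x : Qb) (c : ℂ), φ (iota x * c) = x * φ c) ∧ φ 1 = 1 := by
  letI : Algebra Qb ℂ := iota.toAlgebra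
  obtain ⟨g, hg⟩ := (Algebra.linearMap Qb ℂ).exists_leftInverse_of_injective
    (LinearMap.ker_eq_bot.mpr iota.injective)
  refine ⟨g.toAddMonoidHom, fun x c => ?_, ?_⟩
  · show g (x • c) = x * g c
    rw [map_smul, smul_eq_mul]
  · have h := LinearMap.congr_fun hg 1
    rwa [LinearMap.comp_apply, Algebra.linearMap_apply, map_one, LinearMap.id_apply] at h

/-- An algebraic number whose powers have bounded denominators is integral. -/
theorem isIntegral_of_denom {a : Qb} {D : ℕ} (hD : D ≠ 0)
    (h : ∀ k : ℕ, IsIntegral ℤ ((D : Qb) * a ^ k)) : IsIntegral ℤ a := by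
  set K := IntermediateField.adjoin ℚ ({a} : Set Qb) with hK
  haveI : FiniteDimensional ℚ K :=
    IntermediateField.adjoin.finiteDimensional (Algebra.IsIntegral.isIntegral a)
  haveI : NumberField K := NumberField.mk
  haveI : IsNoetherian ℤ (integralClosure ℤ K) := IsIntegralClosure.isNoetherian ℤ ℚ K _
  let f : integralClosure ℤ K →ₗ[ℤ] Qb :=
    (LinearMap.mulLeft ℤ (D : Qb)⁻¹).comp
      ((K.val.restrictScalars ℤ).toLinearMap.comp (integralClosure ℤ K).val.toLinearMap)
  have hfg : (LinearMap.range f).FG := by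
    rw [← Submodule.map_top]
    exact (IsNoetherian.noetherian ⊤).map f
  haveI : IsNoetherian ℤ (LinearMap.range f) := isNoetherian_of_fg_of_noetherian _ hfg
  have hle : Subalgebra.toSubmodule (Algebra.adjoin ℤ ({a} : Set Qb)) ≤ LinearMap.range f := by
    rw [Algebra.adjoin_eq_span, Submodule.span_le]
    intro y hy
    obtain ⟨k, rfl⟩ := Submonoid.mem_closure_singleton.mp hy
    have hmem : (D : Qb) * a ^ k ∈ K :=
      mul_mem (natCast_mem K D) (pow_mem (IntermediateField.mem_adjoin_simple_self ℚ a) k)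
    have hint : IsIntegral ℤ (⟨_, hmem⟩ : K) :=
      (isIntegral_algHom_iff (K.val.restrictScalars ℤ) Subtype.val_injective).1 (h k)
    refine ⟨⟨_, hint⟩, ?_⟩
    show (D : Qb)⁻¹ * ((D : Qb) * a ^ k) = a ^ k
    rw [inv_mul_cancel_left₀ (Nat.cast_ne_zero.mpr hD)]
  refine IsIntegral.of_mem_of_fg (Algebra.adjoin ℤ ({a} : Set Qb)) ?_ a
    (Algebra.subset_adjoin (Set.mem_singleton a))
  exact Module.Finite.iff_fg.mp (Module.Finite.of_injective _ (Submodule.inclusion_injective hle))

/-- The operator `T_p` on sequences of coefficients. -/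
def primeOp (c : ℂ) (p : ℕ) : Module.End ℂ (ℕ → ℂ) where
  toFun s n := s (p * n) + c * (if p ∣ n then s (n / p) else 0)
  map_add' s t := funext fun n => by simp only [Pi.add_apply]; split_ifs <;> ring
  map_smul' r s := funext fun n => by
    simp only [Pi.smul_apply, smul_eq_mul, RingHom.id_apply]; split_ifs <;> ring

/-- Finitely many eigenvalues of `T_p`. -/
theorem finite_eigenvalues (N : ℕ) [NeZero N] (c : ℂ) (p : ℕ) :
    {t : ℂ | ∃ h : CuspForm (Gamma1 N) 1, qCoeff h 1 = 1 ∧
      ∀ n, primeOp c p (fun m => qCoeff h m) n = t * qCoeff h n}.Finite := by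
  set T := {t : ℂ | ∃ h : CuspForm (Gamma1 N) 1, qCoeff h 1 = 1 ∧
      ∀ n, primeOp c p (fun m => qCoeff h m) n = t * qCoeff h n}
  haveI := finiteDimensional_cuspOne (N := N)
  let qc : CuspForm (Gamma1 N) 1 →ₗ[ℂ] (ℕ → ℂ) :=
    { toFun := fun h n => qCoeff h n
      map_add' := fun a b => funext fun n =>
        qCoeff_add_nice (cusp_mem_nice a) (cusp_mem_nice b) n
      map_smul' := fun z a => funext fun n => qCoeff_smul_nice (cusp_mem_nice a) z n }
  choose h h1 hh using fun t : T => t.2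
  have hli : LinearIndependent ℂ (qc ∘ h) :=
    Module.End.eigenvectors_linearIndependent' (primeOp c p) (fun t : T => (t : ℂ))
      Subtype.val_injective _ fun t => ⟨Module.End.mem_eigenspace_iff.mpr (funext (hh t)),
        fun e => one_ne_zero ((h1 t).symm.trans (congrFun e 1))⟩
  have : Finite T := (LinearIndependent.of_comp qc hli).finite
  exact Set.toFinite T

/-- The Hecke eigenvalues are algebraic. -/
theorem exists_iota_eigenvalue {N : ℕ} [NeZero N] {ε : DirichletCharacter ℂ N}
    {f : CuspForm (Gamma1 N) 1} (hf : IsEigenOne N ε f) (e : DirichletCharacter Qb N)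
    (he : ∀ d : ZMod N, iota (e d) = ε d) {p : ℕ} (hp : p.Prime) (hpN : ¬ p ∣ N) :
    ∃ a : Qb, iota a = qCoeff f p := by
  letI : Algebra Qb ℂ := iota.toAlgebra
  refine FLTA.Kummer.mem_range_of_finite_orbit (K := Qb) (L := ℂ)
    ((finite_eigenvalues N (ε (p : ZMod N)) p).subset ?_)
  rintro _ ⟨σ, rfl⟩
  obtain ⟨g, hg⟩ := exists_conj_form σ.toRingEquiv f
  have hσ : σ (ε (p : ZMod N)) = ε (p : ZMod N) := by rw [← he]; exact σ.commutes _
  refine ⟨g, by rw [hg, hf.1]; exact map_one σ, fun n => ?_⟩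
  show qCoeff g (p * n) + ε (p : ZMod N) * (if p ∣ n then qCoeff g (n / p) else 0) =
    σ (qCoeff f p) * qCoeff g n
  have h := congrArg σ (hf.2 p hp hpN n)
  rw [map_add, map_mul, map_mul, hσ, apply_ite σ, map_zero] at h
  simp only [hg]
  exact h

/-- For almost every `l` and every place over `l`: the character `T_p ↦ a_p`, `⟨d⟩ ↦ ε(d) / d` of
the Hecke algebra of level `N l`. -/
theorem exists_eigen_char (N : ℕ) [NeZero N] (ε : DirichletCharacter ℂ N)
    (f : CuspForm (Gamma1 N) 1) (hf : IsEigenOne N ε f) :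
    ∃ (a : ℕ → Qb) (e : DirichletCharacter Qb N) (K : IntermediateField ℚ Qb) (S : Finset ℕ),
      FiniteDimensional ℚ K ∧
      (∀ d : ZMod N, iota (e d) = ε d) ∧
      (∀ p : ℕ, p.Prime → ¬ p ∣ N →
        iota (a p) = ModularFormClass.qCoeff f p ∧ IsIntegral ℤ (a p) ∧ a p ∈ K) ∧
      (∀ σ : Γℚ, ∃ (εσ : DirichletCharacter ℂ N) (g : CuspForm (Gamma1 N) 1),
        IsEigenOne N εσ g ∧ (∀ d : ZMod N, εσ d = iota (σ (e d))) ∧
          ∀ p : ℕ, p.Prime → ¬ p ∣ N → ModularFormClass.qCoeff g p = iota (σ (a p))) ∧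
      ∀ l : ℕ, (hl : l.Prime) → l ∉ S → 5 ≤ l ∧ ¬ l ∣ N ∧
        ∀ A : ValuationSubring Qb, A.LiesOverPrime l →
          haveI : NeZero (N * l) := ⟨Nat.mul_ne_zero (NeZero.ne N) hl.ne_zero⟩
          ∃ χ : hecke1Alg (N * l) →+* IsLocalRing.ResidueField A,
            (∀ p : ℕ, (hp : p.Prime) → (hpN : ¬ p ∣ N * l) →
              ∃ a' : A, (a' : Qb) = a p ∧
                χ ⟨_, heckePar1_mem hp hpN⟩ = IsLocalRing.residue A a') ∧
            ∀ u : (ZMod (N * l))ˣ, ∃ e' : A,
              (e' : Qb) = e (ZMod.castHom (dvd_mul_right N l) (ZMod N) (u : ZMod (N * l))) ∧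
              χ ⟨_, diamondPar1_mem u⟩ * ((u : ZMod (N * l)).val : IsLocalRing.ResidueField A) =
                IsLocalRing.residue A e' := by
  obtain ⟨e, he⟩ := exists_char_descent ε
  obtain ⟨φ, hφ, hφ1⟩ := exists_projection
  obtain ⟨f', hf'q, hf'a⟩ := exists_phi_form f φ hφ
  obtain ⟨D, hD, hden⟩ := exists_denom_form hf'a
  obtain ⟨K, hK, hKmem⟩ := exists_field_form hf'a
  set x : ℕ → Qb := fun n => φ (qCoeff f n) with hx
  have hx1 : x 1 = 1 := by rw [hx]; show φ (qCoeff f 1) = 1; rw [hf.1, hφ1]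
  have hap : ∀ p, p.Prime → ¬ p ∣ N → iota (x p) = qCoeff f p := fun p hp hpN => by
    obtain ⟨a, ha⟩ := exists_iota_eigenvalue hf e he hp hpN
    have hxa : x p = a := by
      show φ (qCoeff f p) = a
      rw [← ha, ← mul_one (iota a), hφ, hφ1, mul_one]
    rw [hxa, ha]
  have hrec : ∀ p, p.Prime → ¬ p ∣ N → ∀ n,
      x (p * n) + e (p : ZMod N) * (if p ∣ n then x (n / p) else 0) = x p * x n := by
    intro p hp hpN n
    have h := congrArg φ (hf.2 p hp hpN n)
    rw [← hap p hp hpN, ← he, map_add, hφ, hφ, apply_ite φ, map_zero] at h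
    exact h
  have hq : ∀ n, qCoeff f' n = iota (x n) := hf'q
  have hf' : IsEigenOne N ε f' := by
    refine ⟨by rw [hq, hx1, map_one], fun p hp hpN n => ?_⟩
    have h := congrArg iota (hrec p hp hpN n)
    rw [map_add, map_mul, map_mul, he, apply_ite iota, map_zero] at h
    simp only [hq]
    exact h
  have hDx : ∀ n, IsIntegral ℤ ((D : Qb) * x n) := fun n => by
    obtain ⟨b, hb, hb'⟩ := hden n
    rw [hq, ← map_natCast iota, ← map_mul] at hb'
    exact iota.injective hb' ▸ hb
  have hint : ∀ p, p.Prime → ¬ p ∣ N → IsIntegral ℤ (x p) := by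
    intro p hp hpN
    have key : ∀ k j : ℕ, IsIntegral ℤ ((D : Qb) * x p ^ k * x (p ^ j)) := by
      intro k
      induction k with
      | zero => intro j; simpa using hDx (p ^ j)
      | succ k ih =>
        intro j
        rw [pow_succ, show (D : Qb) * (x p ^ k * x p) * x (p ^ j) =
          (D : Qb) * x p ^ k * (x p * x (p ^ j)) by ring, ← hrec p hp hpN (p ^ j)]
        rcases j with _ | j
        · rw [pow_zero, mul_one, if_neg (by simpa using hp.ne_one), mul_zero, add_zero]
          simpa using ih 1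
        · rw [if_pos (dvd_pow_self p (Nat.succ_ne_zero j)), show p * p ^ (j + 1) = p ^ (j + 2) by
            ring, show p ^ (j + 1) / p = p ^ j by
            rw [pow_succ, Nat.mul_div_cancel _ hp.pos], mul_add,
            show (D : Qb) * x p ^ k * (e (p : ZMod N) * x (p ^ j)) =
              e (p : ZMod N) * ((D : Qb) * x p ^ k * x (p ^ j)) by ring]
          exact (ih (j + 2)).add ((isIntegral_char e _).mul (ih j))
    refine isIntegral_of_denom hD fun k => ?_
    simpa [hx1] using key k 0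
  refine ⟨x, e, K, D.primeFactors ∪ N.primeFactors ∪ Finset.range 5, hK, he,
    fun p hp hpN => ⟨hap p hp hpN, hint p hp hpN, hKmem p (x p) (hq p).symm⟩, fun σ => ?_, ?_⟩
  · obtain ⟨g, hg⟩ := exists_conj_form (liftC σ) f'
    have hgq : ∀ n, qCoeff g n = iota (σ (x n)) := fun n => by rw [hg, hq, liftC_iota]
    refine ⟨e.ringHomComp (iota.comp (σ : Qb →+* Qb)), g, ⟨?_, fun p hp hpN n => ?_⟩,
      fun d => rfl, fun p _ _ => hgq p⟩
    · rw [hgq, hx1, map_one, map_one]
    · have h := congrArg (fun z => iota (σ z)) (hrec p hp hpN n)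
      simp only [map_add, map_mul, apply_ite σ, apply_ite iota, map_zero] at h
      simp only [hgq]
      exact h
  intro l hl hlS
  simp only [Finset.mem_union, Finset.mem_range, not_or, not_lt, Nat.mem_primeFactors, hl,
    ne_eq, hD, not_false_eq_true, and_true, true_and, NeZero.ne N] at hlS
  obtain ⟨⟨hlD, hlN⟩, h5⟩ := hlS
  refine ⟨h5, hlN, fun A hA => ?_⟩
  haveI : NeZero (N * l) := ⟨Nat.mul_ne_zero (NeZero.ne N) hl.ne_zero⟩
  have hxA : ∀ n, x n ∈ A := fun n => by
    have hDinv : ((D : Qb))⁻¹ ∈ A := by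
      rcases A.mem_or_inv_mem ((D : Qb))⁻¹ with h | h
      · exact h
      · by_contra h'
        exact hlD ((Galois.natCast_mem_nonunits_iff hl hA D).mp
          ((ValuationSubring.mem_nonunits_iff_exists_mem_maximalIdeal).mpr
            ⟨by simpa using h, (IsLocalRing.mem_maximalIdeal _).mpr fun hu => h' (by
              obtain ⟨w, hw⟩ := hu.exists_right_inv
              have e1 := congrArg Subtype.val hw
              rw [MulMemClass.coe_mul, OneMemClass.coe_one] at e1
              rw [inv_eq_of_mul_eq_one_right e1]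
              exact w.2)⟩))
    have h := mul_mem hDinv (Galois.mem_of_isIntegral (A := A) (hDx n))
    rwa [← mul_assoc, inv_mul_cancel₀ (Nat.cast_ne_zero.mpr hD), one_mul] at h
  obtain ⟨χ, hχT, hχD⟩ := exists_char_of_integral e he hf' hl h5 hA
    (fun n => ⟨⟨x n, hxA n⟩, (hq n).symm⟩)
  refine ⟨χ, fun p hp hpN => ?_, hχD⟩
  obtain ⟨a', ha', hχ⟩ := hχT p hp hpN
  exact ⟨a', iota.injective (ha'.trans (hq p)), hχ⟩

end FLTA.DeligneSerre
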