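import Fermat.Agent.DeligneSerre.Eigen.ModRep
import Fermat.Agent.DeligneSerre.Eigen.Char

/-!
# From the Hecke character and the torsion representations to the family of representations
-/

set_option autoImplicit false

noncomputable section

open CongruenceSubgroup
open scoped MatrixGroups

namespace FLTA.DeligneSerre

local notation "Qb" => AlgebraicClosure ℚ
local notation "Γℚ" => (Qb ≃ₐ[ℚ] Qb)

/-- What is needed about the Galois action on `Hom_par(Γ₁(M), ℤ/l)`. -/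
def HasTorsionRep (M : ℕ) [NeZero M] (l : ℕ) : Prop :=
  (∀ p q : ℕ, Commute
      (heckePar1 (ZMod l) p : Module.End (ZMod l) (parHom1 M (ZMod l) (ZMod l)))
      (heckePar1 (ZMod l) q)) ∧
    ∃ π : Γℚ →* Module.End (ZMod l) (parHom1 M (ZMod l) (ZMod l)),
      GaloisFactorsThroughFiniteLevel π ∧
      (∀ σ p, Commute (π σ) (heckePar1 (ZMod l) p)) ∧
      (∀ σ u, Commute (π σ) (diamondPar1 (ZMod l) u)) ∧
      ∀ (p : ℕ) (hp : p.Prime ∧ ¬ p ∣ M), p ≠ l → ∀ B : ValuationSubring Qb,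
        B.LiesOverPrime p → (∀ σ ∈ B.inertiaSubgroupIn ℚ, π σ = 1) ∧
          ∀ σ : Γℚ, B.IsFrobeniusAt σ p →
            π σ * π σ - heckePar1 (ZMod l) p * π σ +
              (p : ZMod l) • diamondPar1 (ZMod l)
                (ZMod.unitOfCoprime p (hp.1.coprime_iff_not_dvd.mpr hp.2)) = 0

theorem heckeRing1_le (M : ℕ) [NeZero M] : heckeRing1 M ≤ (hecke1Alg M).toSubring := by
  rw [heckeRing1, Subring.closure_le]
  rintro _ ⟨⟨p, hp⟩ | u, rfl⟩
  · exact heckePar1_mem hp.1 hp.2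
  · exact diamondPar1_mem u

/-- The last clause of `exists_eigen_data` from a character at level `N * l`. -/
theorem exists_rep_of_char {N : ℕ} [NeZero N] {l : ℕ} (hl : l.Prime) [NeZero (N * l)]
    (hrep : HasTorsionRep (N * l) l)
    (a : ℕ → Qb) (e : DirichletCharacter Qb N) (A : ValuationSubring Qb) (hA : A.LiesOverPrime l)
    (χ : hecke1Alg (N * l) →+* IsLocalRing.ResidueField A)
    (hχT : ∀ p : ℕ, (hp : p.Prime) → (hpN : ¬ p ∣ N * l) →
      ∃ a' : A, (a' : Qb) = a p ∧ χ ⟨_, heckePar1_mem hp hpN⟩ = IsLocalRing.residue A a')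
    (hχD : ∀ u : (ZMod (N * l))ˣ, ∃ e' : A,
      (e' : Qb) = e (ZMod.castHom (dvd_mul_right N l) (ZMod N) (u : ZMod (N * l))) ∧
      χ ⟨_, diamondPar1_mem u⟩ * ((u : ZMod (N * l)).val : IsLocalRing.ResidueField A) =
        IsLocalRing.residue A e') :
    ∃ ρ : Γℚ →* GL (Fin 2) (IsLocalRing.ResidueField A),
      GaloisFactorsThroughFiniteLevel ρ ∧ IsSemisimpleTwo ρ ∧
      ∀ p : ℕ, p.Prime → ¬ p ∣ N → p ≠ l → ∀ B : ValuationSubring Qb, B.LiesOverPrime p →
        (∀ σ ∈ B.inertiaSubgroupIn ℚ, ρ σ = 1) ∧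
        ∀ σ : Γℚ, B.IsFrobeniusAt σ p →
          ∃ a' e' : A, (a' : Qb) = a p ∧ (e' : Qb) = e (p : ZMod N) ∧
            ((ρ σ : GL (Fin 2) _) : Matrix (Fin 2) (Fin 2) _).trace =
              IsLocalRing.residue A a' ∧
            ((ρ σ : GL (Fin 2) _) : Matrix (Fin 2) (Fin 2) _).det =
              IsLocalRing.residue A e' := by
  haveI := Fact.mk hl
  obtain ⟨hcomm, π, hπ, hπT, hπD, hπp⟩ := hrep
  haveI : CharP (IsLocalRing.ResidueField A) l := Galois.charP_residueField hl hA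
  have hθ : IsModEigen (N := N) a e A (χ.comp (Subring.inclusion (heckeRing1_le (N * l)))) := by
    intro p hp
    obtain ⟨a', ha', hT⟩ := hχT p hp.1 hp.2
    set u := ZMod.unitOfCoprime p (hp.1.coprime_iff_not_dvd.mpr hp.2) with hu
    obtain ⟨e', he', hD⟩ := hχD u
    refine ⟨a', e', ha', ?_, hT, ?_⟩
    · rw [he']
      congr 1
      rw [hu, ZMod.coe_unitOfCoprime, map_natCast]
    · refine Eq.trans ?_ hD
      congr 1
      rw [hu, ZMod.coe_unitOfCoprime, ZMod.val_natCast]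
      exact ((CharP.natCast_eq_natCast _ l).mpr ((Nat.mod_modEq p (N * l)).of_dvd (dvd_mul_left l N))).symm
  obtain ⟨ρ, hρ, hss, hρp⟩ := exists_modRep (N := N) A hA (dvd_mul_right N l) a e _ hθ
    hcomm π hπ hπT hπD hπp
  refine ⟨ρ, hρ, hss, fun p hp hpN hpl => hρp p hp ?_ hpl⟩
  intro h
  rcases hp.dvd_mul.mp h with h' | h'
  · exact hpN h'
  · exact hpl ((Nat.prime_dvd_prime_iff_eq hp hl).mp h')

/-- The family of representations from the characters and the torsion representations. -/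
theorem exists_eigen_data_of_torsionRep
    (hrep : ∀ (M l : ℕ) [NeZero M], 5 ≤ M → l.Prime → HasTorsionRep M l)
    (N : ℕ) [NeZero N] (ε : DirichletCharacter ℂ N)
    (f : CuspForm (Gamma1 N) 1) (hf : IsEigenOne N ε f) :
    ∃ (a : ℕ → Qb) (e : DirichletCharacter Qb N) (K : IntermediateField ℚ Qb) (S : Finset ℕ),
      FiniteDimensional ℚ K ∧
      (∀ d : ZMod N, iota (e d) = ε d) ∧
      (∀ p : ℕ, p.Prime → ¬ p ∣ N →
        iota (a p) = ModularFormClass.qCoeff f p ∧ IsIntegral ℤ (a p) ∧ a p ∈ K) ∧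
      (∀ σ : Γℚ, ∃ (εσ : DirichletCharacter ℂ N) (g : CuspForm (Gamma1 N) 1),
        IsEigenOne N εσ g ∧ (∀ d : ZMod N, εσ d = iota (σ (e d))) ∧
          ∀ p : ℕ, p.Prime → ¬ p ∣ N → ModularFormClass.qCoeff g p = iota (σ (a p))) ∧
      ∀ l : ℕ, l.Prime → l ∉ S → ∀ A : ValuationSubring Qb, A.LiesOverPrime l →
        ∃ ρ : Γℚ →* GL (Fin 2) (IsLocalRing.ResidueField A),
          GaloisFactorsThroughFiniteLevel ρ ∧ IsSemisimpleTwo ρ ∧
          ∀ p : ℕ, p.Prime → ¬ p ∣ N → p ≠ l → ∀ B : ValuationSubring Qb, B.LiesOverPrime p →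
            (∀ σ ∈ B.inertiaSubgroupIn ℚ, ρ σ = 1) ∧
            ∀ σ : Γℚ, B.IsFrobeniusAt σ p →
              ∃ a' e' : A, (a' : Qb) = a p ∧ (e' : Qb) = e (p : ZMod N) ∧
                ((ρ σ : GL (Fin 2) _) : Matrix (Fin 2) (Fin 2) _).trace =
                  IsLocalRing.residue A a' ∧
                ((ρ σ : GL (Fin 2) _) : Matrix (Fin 2) (Fin 2) _).det =
                  IsLocalRing.residue A e' := by
  obtain ⟨a, e, K, S, hK, he, ha, hconj, hchar⟩ := exists_eigen_char N ε f hf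
  refine ⟨a, e, K, S, hK, he, ha, hconj, fun l hl hlS A hA => ?_⟩
  obtain ⟨h5, -, hA'⟩ := hchar l hl hlS
  haveI : NeZero (N * l) := ⟨Nat.mul_ne_zero (NeZero.ne N) hl.ne_zero⟩
  obtain ⟨χ, hT, hD⟩ := hA' A hA
  exact exists_rep_of_char hl
    (hrep (N * l) l (h5.trans (Nat.le_mul_of_pos_left l (NeZero.pos N))) hl) a e A hA χ hT hD

end FLTA.DeligneSerre
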