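import Fermat.Agent.DeligneSerre.Hecke.Reps
import Fermat.Agent.DeligneSerre.Eigen.Defs
import Fermat.Prelude.Thm_UpperHalfPlane_qCoeff_heckeT
import Fermat.Prelude.Thm_UpperHalfPlane_qCoeff_heckeU
import Fermat.Prelude.Thm_UpperHalfPlane_eq_of_forall_qCoeff_eq
import Fermat.Prelude.Thm_ModularForm_periodic_heckeT_comp_ofComplex
import Fermat.Prelude.Thm_ModularForm_periodic_heckeU_comp_ofComplex
import Fermat.Prelude.Thm_ModularForm_isBoundedAtImInfty_heckeT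
import Fermat.Prelude.Thm_ModularForm_isBoundedAtImInfty_heckeU
import Fermat.Prelude.Thm_ModularForm_mdifferentiable_heckeT
import Fermat.Prelude.Thm_ModularForm_mdifferentiable_heckeU

/-!
# `q`-coefficients of one periodic bounded holomorphic functions
-/

set_option autoImplicit false

noncomputable section

open UpperHalfPlane hiding I
open CongruenceSubgroup ModularFormClass Function
open scoped MatrixGroups ModularForm Manifold

namespace FLTA.DeligneSerre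

/-- One periodic holomorphic functions bounded at infinity. -/
def NiceQ : Submodule ℂ (ℍ → ℂ) where
  carrier := {h | Periodic (h ∘ ofComplex) 1 ∧ MDiff h ∧ IsBoundedAtImInfty h}
  zero_mem' := ⟨fun _ => rfl, mdifferentiable_const, Filter.const_boundedAtFilter _ 0⟩
  add_mem' ha hb := ⟨ha.1.add hb.1, ha.2.1.add hb.2.1, ha.2.2.add hb.2.2⟩
  smul_mem' c h hh := ⟨fun x => congrArg (c • ·) (hh.1 x), hh.2.1.const_smul c, hh.2.2.smul c⟩

theorem analyticAt_of_nice {h : ℍ → ℂ} (hh : h ∈ NiceQ) :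
    AnalyticAt ℂ (cuspFunction 1 h) 0 :=
  analyticAt_cuspFunction_zero one_pos (by simpa using hh.1) hh.2.1 hh.2.2

theorem qCoeff_add_nice {h h' : ℍ → ℂ} (hh : h ∈ NiceQ) (hh' : h' ∈ NiceQ) (n : ℕ) :
    qCoeff (h + h') n = qCoeff h n + qCoeff h' n := by
  simp only [qCoeff]
  rw [qExpansion_add (analyticAt_of_nice hh) (analyticAt_of_nice hh'), map_add]

theorem qCoeff_smul_nice {h : ℍ → ℂ} (hh : h ∈ NiceQ) (c : ℂ) (n : ℕ) :
    qCoeff (c • h) n = c * qCoeff h n := by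
  simp only [qCoeff]
  rw [qExpansion_smul (analyticAt_of_nice hh), PowerSeries.coeff_smul, smul_eq_mul]

theorem qCoeff_zero_nice (n : ℕ) : qCoeff (0 : ℍ → ℂ) n = 0 := by
  rw [← zero_smul ℂ (0 : ℍ → ℂ), qCoeff_smul_nice NiceQ.zero_mem, zero_mul]

theorem qCoeff_sum_nice {ι : Type*} (s : Finset ι) (F : ι → ℍ → ℂ) (hF : ∀ i ∈ s, F i ∈ NiceQ)
    (n : ℕ) : qCoeff (∑ i ∈ s, F i) n = ∑ i ∈ s, qCoeff (F i) n := by
  classical
  induction s using Finset.induction with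
  | empty => simpa using qCoeff_zero_nice n
  | insert a s ha ih =>
    rw [Finset.sum_insert ha, Finset.sum_insert ha, qCoeff_add_nice (hF a (by simp))
      (Submodule.sum_mem _ fun i hi => hF i (by simp [hi])), ih fun i hi => hF i (by simp [hi])]

theorem nice_ext {h h' : ℍ → ℂ} (hh : h ∈ NiceQ) (hh' : h' ∈ NiceQ)
    (e : ∀ n, qCoeff h n = qCoeff h' n) : h = h' :=
  UpperHalfPlane.eq_of_forall_qCoeff_eq hh.1 hh.2.1 hh.2.2 hh'.1 hh'.2.1 hh'.2.2 e

theorem heckeT_mem_nice {h : ℍ → ℂ} (hh : h ∈ NiceQ) (k : ℤ) (p : ℕ) :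
    ModularForm.heckeT k p h ∈ NiceQ :=
  ⟨ModularForm.periodic_heckeT_comp_ofComplex hh.1 k p, ModularForm.mdifferentiable_heckeT hh.2.1 k p,
    ModularForm.isBoundedAtImInfty_heckeT hh.2.2 k p⟩

theorem heckeU_mem_nice {h : ℍ → ℂ} (hh : h ∈ NiceQ) (k : ℤ) (p : ℕ) :
    ModularForm.heckeU k p h ∈ NiceQ :=
  ⟨ModularForm.periodic_heckeU_comp_ofComplex hh.1 k p, ModularForm.mdifferentiable_heckeU hh.2.1 k p,
    ModularForm.isBoundedAtImInfty_heckeU hh.2.2 k p⟩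

theorem diag_mem_nice {h : ℍ → ℂ} (hh : h ∈ NiceQ) (k : ℤ) (p : ℕ) :
    h ∣[k] ModularForm.heckeDiagMatrix p ∈ NiceQ := by
  have := sub_mem (heckeT_mem_nice hh k p) (heckeU_mem_nice hh k p)
  rwa [ModularForm.heckeT_eq_heckeU_add, add_sub_cancel_left] at this

theorem qCoeff_heckeU_nice {h : ℍ → ℂ} (hh : h ∈ NiceQ) (k : ℤ) {p : ℕ} (hp : p ≠ 0) (n : ℕ) :
    qCoeff (ModularForm.heckeU k p h) n = qCoeff h (n * p) :=
  UpperHalfPlane.qCoeff_heckeU hh.1 hh.2.1 hh.2.2 k hp n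

theorem qCoeff_diag_nice {h : ℍ → ℂ} (hh : h ∈ NiceQ) (k : ℤ) {p : ℕ} (hp : p ≠ 0) (n : ℕ) :
    qCoeff (h ∣[k] ModularForm.heckeDiagMatrix p) n =
      if p ∣ n then (p : ℂ) ^ (k - 1) * qCoeff h (n / p) else 0 := by
  have h1 := qCoeff_add_nice (heckeU_mem_nice hh k p) (diag_mem_nice hh k p) n
  rw [← ModularForm.heckeT_eq_heckeU_add, UpperHalfPlane.qCoeff_heckeT hh.1 hh.2.1 hh.2.2 k hp,
    qCoeff_heckeU_nice hh k hp, ModularForm.coeffHeckeT_apply] at h1
  exact (add_left_cancel h1).symm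

variable {N : ℕ} {k : ℤ}

theorem slash_eq_of_mem_gamma1 {F : Type*} [FunLike F ℍ ℂ]
    [SlashInvariantFormClass F ((Gamma1 N).map (Matrix.SpecialLinearGroup.mapGL ℝ)) k] (f : F)
    {γ : SL(2, ℤ)} (hγ : γ ∈ Gamma1 N) : (⇑f) ∣[k] γ = ⇑f :=
  SlashInvariantFormClass.slash_action_eq f _ (Subgroup.mem_map_of_mem _ hγ)

theorem T_zpow_mem_gamma1 (n : ℤ) : ModularGroup.T ^ n ∈ Gamma1 N := by
  rw [Gamma1_mem, ModularGroup.coe_T_zpow]
  simp

theorem periodic_one_of_slash (k : ℤ) {h : ℍ → ℂ} (hT : h ∣[k] ModularGroup.T = h) :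
    Periodic (h ∘ ofComplex) 1 := by
  intro w
  by_cases hw : 0 < w.im
  · have hw' : 0 < (w + 1).im := by simpa using hw
    simp only [comp_apply, ofComplex_apply_of_im_pos hw', ofComplex_apply_of_im_pos hw]
    have h2 := congrFun hT ⟨w, hw⟩
    rw [ModularForm.SL_slash_apply, UpperHalfPlane.modular_T_smul] at h2
    have hd : denom (ModularGroup.T : GL (Fin 2) ℝ) (⟨w, hw⟩ : ℍ) = 1 := by
      rw [ModularGroup.denom_apply]; simp [ModularGroup.T]
    rw [hd, one_zpow, mul_one] at h2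
    refine Eq.trans (congrArg h (UpperHalfPlane.ext ?_)) h2
    simp [add_comm]
  · have hw' : (w + 1).im ≤ 0 := by simpa using not_lt.mp hw
    simp only [comp_apply, ofComplex_apply_of_im_nonpos hw',
      ofComplex_apply_of_im_nonpos (not_lt.mp hw)]

theorem cusp_slash_isZero (f : CuspForm (Gamma1 N) k) [NeZero N] (g : SL(2, ℤ)) :
    IsZeroAtImInfty (⇑f ∣[k] g) :=
  CuspFormClass.zero_at_infty_slash f g

/-- Cusp forms for `Γ₁(N)` are nice. -/
theorem cusp_mem_nice [NeZero N] (f : CuspForm (Gamma1 N) k) : ⇑f ∈ NiceQ := by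
  refine ⟨periodic_one_of_slash k (slash_eq_of_mem_gamma1 f
    (by simpa using T_zpow_mem_gamma1 (N := N) 1)), CuspFormClass.holo f, ?_⟩
  have := (cusp_slash_isZero f 1).boundedAtFilter
  rwa [SlashAction.slash_one] at this

/-- Translates by `Γ₀(N)` of cusp forms are nice. -/
theorem slash_gamma0_mem_nice [NeZero N] (f : CuspForm (Gamma1 N) k) (g : Gamma0 N) :
    ⇑f ∣[k] (g : SL(2, ℤ)) ∈ NiceQ := by
  refine ⟨periodic_one_of_slash k ?_, ?_, (cusp_slash_isZero f _).boundedAtFilter⟩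
  · rw [← SlashAction.slash_mul]
    have hT : (g : SL(2, ℤ)) * ModularGroup.T * (g : SL(2, ℤ))⁻¹ ∈ Gamma1 N := by
      have hT1 : ModularGroup.T ∈ Gamma1 N := by simpa using T_zpow_mem_gamma1 (N := N) 1
      obtain ⟨h0, h1⟩ := mem_gamma1_iff.1 hT1
      refine mem_gamma1_iff.2 ⟨mul_mem (mul_mem g.2 h0) (inv_mem g.2), ?_⟩
      show lowerRight N (g * ⟨_, h0⟩ * g⁻¹) = 1
      simp [h1]
    conv_lhs => rw [show (g : SL(2, ℤ)) * ModularGroup.T =
      (g : SL(2, ℤ)) * ModularGroup.T * (g : SL(2, ℤ))⁻¹ * g by simp [mul_assoc]]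
    rw [SlashAction.slash_mul, slash_eq_of_mem_gamma1 f hT]
  · exact (CuspFormClass.holo f).slash k _

end FLTA.DeligneSerre
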