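import Fermat.Agent.DeligneSerre.Quad.Assemble
import Fermat.Agent.DeligneSerre.Quad.EigenVector
import Fermat.Agent.DeligneSerre.Quad.LatticeMod
import Fermat.Agent.DeligneSerre.Quad.CycloChar

/-!
# The mod `λ` representation attached to a mod `λ` Hecke character
-/

set_option autoImplicit false

noncomputable section

open CongruenceSubgroup ModularCurve.Period
open scoped MatrixGroups TensorProduct

namespace FLTA.DeligneSerre

local notation "Qb" => AlgebraicClosure ℚ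
local notation "Γℚ" => (Qb ≃ₐ[ℚ] Qb)

variable (M : ℕ) [NeZero M]

/-- The generators of the Hecke algebra of parabolic homomorphisms: `T_p` for primes `p ∤ M` and
the diamond operators. -/
def heckeGen (A : Type) [AddCommGroup A] (𝕜 : Type) [CommSemiring 𝕜] [Module 𝕜 A] :
    {p : ℕ // p.Prime ∧ ¬ p ∣ M} ⊕ (ZMod M)ˣ → Module.End 𝕜 (parHom1 M A 𝕜) :=
  Sum.elim (fun p => heckePar1 𝕜 p.1) (fun u => diamondPar1 𝕜 u)

/-- The `ℤ`-Hecke algebra generated by `heckeGen`. -/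
abbrev heckeRing1 : Subring (Module.End ℤ (parHom1 M ℤ ℤ)) :=
  Subring.closure (Set.range (heckeGen M ℤ ℤ))

variable {M}

/-- An element of `heckeRing1`. -/
def heckeRingGen (i : {p : ℕ // p.Prime ∧ ¬ p ∣ M} ⊕ (ZMod M)ˣ) : heckeRing1 M :=
  ⟨heckeGen M ℤ ℤ i, Subring.subset_closure ⟨i, rfl⟩⟩

variable {N : ℕ} [NeZero N]

/-- `θ` is the mod `λ` system `T_p ↦ a_p`, `p ⟨p⟩ ↦ e(p)`. -/
def IsModEigen (a : ℕ → Qb) (e : DirichletCharacter Qb N) (A : ValuationSubring Qb)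
    (θ : heckeRing1 M →+* IsLocalRing.ResidueField A) : Prop :=
  ∀ (p : ℕ) (hp : p.Prime ∧ ¬ p ∣ M), ∃ a' e' : A, (a' : Qb) = a p ∧ (e' : Qb) = e (p : ZMod N) ∧
    θ (heckeRingGen (Sum.inl ⟨p, hp⟩)) = IsLocalRing.residue A a' ∧
    θ (heckeRingGen (Sum.inr (ZMod.unitOfCoprime p (hp.1.coprime_iff_not_dvd.mpr hp.2)))) *
      (p : IsLocalRing.ResidueField A) = IsLocalRing.residue A e'

/-- The mod `λ` representation. -/
theorem exists_modRep {l : ℕ} [Fact l.Prime] (A : ValuationSubring Qb) (hA : A.LiesOverPrime l)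
    (hNM : N ∣ M) (a : ℕ → Qb) (e : DirichletCharacter Qb N)
    (θ : heckeRing1 M →+* IsLocalRing.ResidueField A) (hθ : IsModEigen a e A θ)
    (hcomm : ∀ p q : ℕ, Commute
      (heckePar1 (ZMod l) p : Module.End (ZMod l) (parHom1 M (ZMod l) (ZMod l)))
      (heckePar1 (ZMod l) q))
    (π : Γℚ →* Module.End (ZMod l) (parHom1 M (ZMod l) (ZMod l)))
    (hπ : GaloisFactorsThroughFiniteLevel π)
    (hπT : ∀ σ p, Commute (π σ) (heckePar1 (ZMod l) p))
    (hπD : ∀ σ u, Commute (π σ) (diamondPar1 (ZMod l) u))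
    (hπp : ∀ (p : ℕ) (hp : p.Prime ∧ ¬ p ∣ M), p ≠ l → ∀ B : ValuationSubring Qb,
      B.LiesOverPrime p → (∀ σ ∈ B.inertiaSubgroupIn ℚ, π σ = 1) ∧
        ∀ σ : Γℚ, B.IsFrobeniusAt σ p →
          π σ * π σ - heckePar1 (ZMod l) p * π σ +
            (p : ZMod l) • diamondPar1 (ZMod l)
              (ZMod.unitOfCoprime p (hp.1.coprime_iff_not_dvd.mpr hp.2)) = 0) :
    ∃ ρ : Γℚ →* GL (Fin 2) (IsLocalRing.ResidueField A),
      GaloisFactorsThroughFiniteLevel ρ ∧ IsSemisimpleTwo ρ ∧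
      ∀ p : ℕ, p.Prime → ¬ p ∣ M → p ≠ l → ∀ B : ValuationSubring Qb, B.LiesOverPrime p →
        (∀ σ ∈ B.inertiaSubgroupIn ℚ, ρ σ = 1) ∧
        ∀ σ : Γℚ, B.IsFrobeniusAt σ p →
          ∃ a' e' : A, (a' : Qb) = a p ∧ (e' : Qb) = e (p : ZMod N) ∧
            ((ρ σ : GL (Fin 2) _) : Matrix (Fin 2) (Fin 2) _).trace = IsLocalRing.residue A a' ∧
            ((ρ σ : GL (Fin 2) _) : Matrix (Fin 2) (Fin 2) _).det = IsLocalRing.residue A e' := by
  classical
  have : CharP (IsLocalRing.ResidueField A) l := Galois.charP_residueField Fact.out hA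
  have : IsAlgClosed (IsLocalRing.ResidueField A) := Galois.isAlgClosed_residueField A
  let _ : Algebra (ZMod l) (IsLocalRing.ResidueField A) := ZMod.algebra _ l
  have : Finite (parHom1 M (ZMod l) (ZMod l)) := finite_parHom1 M (ZMod l)
  have : FiniteDimensional (ZMod l) (parHom1 M (ZMod l) (ZMod l)) := Module.Finite.of_finite
  obtain ⟨hfin, hfree⟩ := finite_free_parHom1_int M
  have hcomm0 : ∀ i j, Commute (heckeGen M (ZMod l) (ZMod l) i) (heckeGen M (ZMod l) (ZMod l) j) := by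
    rintro (⟨p, hp⟩ | u) (⟨q, hq⟩ | v)
    · exact hcomm p q
    · exact commute_heckePar1_diamondPar1 _ p v
    · exact (commute_heckePar1_diamondPar1 _ q u).symm
    · exact (Commute.all u v).map (diamondPar1 (ZMod l))
  obtain ⟨y, hy0, hy⟩ := exists_eigenvector_of_lattice (parRed M l)
    (exists_eq_smul_of_parRed_eq_zero M l) (heckeGen M ℤ ℤ) (heckeGen M (ZMod l) (ZMod l)) hcomm0
    (by
      rintro (⟨p, hp⟩ | u) φ
      · exact parRed_heckePar1 M l p φ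
      · exact parRed_diamondPar1 M l u φ) θ
  obtain ⟨ρ, hρ, hss, hdet, htr, hone⟩ := exists_plane_of_eigenvector
    (heckeGen M (ZMod l) (ZMod l)) (fun i => θ (heckeRingGen i)) y hy0 hy π hπ
    (fun σ i => by
      rcases i with ⟨p, hp⟩ | u
      · exact hπT σ p
      · exact hπD σ u)
    (dirichletRes e A) (dirichletRes_finiteLevel e A) (M.primeFactors ∪ {l})
    (fun p => ¬ p ∣ M ∧ p ≠ l)
    (fun p hp hpS => by
      simp only [Finset.mem_union, Finset.mem_singleton, Nat.mem_primeFactors, not_or, not_and] at hpS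
      exact ⟨fun h => hpS.1 hp h (NeZero.ne M), hpS.2⟩)
    (fun p hp hgood B hB σ hσ => by
      obtain ⟨a', e', ha', he', hθT, hθD⟩ := hθ p ⟨hp, hgood.1⟩
      refine ⟨Sum.inl ⟨p, hp, hgood.1⟩,
        Sum.inr (ZMod.unitOfCoprime p (hp.coprime_iff_not_dvd.mpr hgood.1)), p,
        (hπp p ⟨hp, hgood.1⟩ hgood.2 B hB).2 σ hσ, ?_⟩
      rw [hθD, dirichletRes_eq e A (by
        rw [he', cycloUnit_frobenius N hp (fun h => hgood.1 (h.trans hNM)) hB hσ])])
  refine ⟨ρ, hρ, hss, fun p hp hpM hpl B hB => ⟨fun σ hσ => hone σ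
    ((hπp p ⟨hp, hpM⟩ hpl B hB).1 σ hσ)
    (dirichletRes_inertia e A hp (fun h => hpM (h.trans hNM)) hB hσ), fun σ hσ => ?_⟩⟩
  obtain ⟨a', e', ha', he', hθT, hθD⟩ := hθ p ⟨hp, hpM⟩
  have hd : dirichletRes e A σ = IsLocalRing.residue A e' := dirichletRes_eq e A (by
    rw [he', cycloUnit_frobenius N hp (fun h => hpM (h.trans hNM)) hB hσ])
  refine ⟨a', e', ha', he', ?_, by rw [hdet σ, hd]⟩
  rw [← hθT]
  exact htr σ (Sum.inl ⟨p, hp, hpM⟩)
    (Sum.inr (ZMod.unitOfCoprime p (hp.coprime_iff_not_dvd.mpr hpM))) p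
    ((hπp p ⟨hp, hpM⟩ hpl B hB).2 σ hσ) (hθD.trans hd.symm)

end FLTA.DeligneSerre
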