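import Mathlib
import Fermat.Prelude.Def_GaloisRep_Residual
import Fermat.Prelude.Def_Deformations_MatrixRepresentation
import Fermat.Agent.DeligneSerre.Eigen.Defs
import Fermat.Agent.DeligneSerre.Rep.TorsionRep

/-!
# The family of mod `λ` representations of a weight one eigenform

Owners: helper20 (algebraicity, periods), helper5 (representations). Interface.
-/

set_option autoImplicit false

noncomputable section

open CongruenceSubgroup
open scoped MatrixGroups

namespace FLTA.DeligneSerre

local notation "Qb" => AlgebraicClosure ℚ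
local notation "Γℚ" => (Qb ≃ₐ[ℚ] Qb)

/-- Eigenvalues, their conjugates, and the representations modulo almost all places. -/
theorem exists_eigen_data (N : ℕ) [NeZero N] (ε : DirichletCharacter ℂ N)
    (f : CuspForm (Gamma1 N) 1) (hf : IsEigenOne N ε f) :
    ∃ (a : ℕ → Qb) (e : DirichletCharacter Qb N) (K : IntermediateField ℚ Qb) (S : Finset ℕ),
      FiniteDimensional ℚ K ∧
      (∀ d : ZMod N, iota (e d) = ε d) ∧
      (∀ p : ℕ, p.Prime → ¬ p ∣ N →
        iota (a p) = ModularFormClass.qCoeff f p ∧ IsIntegral ℤ (a p) ∧ a p ∈ K) ∧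
      (∀ σ : Γℚ, ∃ (εσ : DirichletCharacter ℂ N) (g : CuspForm (Gamma1 N) 1),
        IsEigenOne N εσ g ∧ (∀ d : ZMod N, εσ d = iota (σ (e d))) ∧
          ∀ p : ℕ, p.Prime → ¬ p ∣ N → ModularFormClass.qCoeff g p = iota (σ (a p))) ∧
      ∀ l : ℕ, l.Prime → l ∉ S → ∀ A : ValuationSubring Qb, A.LiesOverPrime l →
        ∃ ρ : Γℚ →* GL (Fin 2) (IsLocalRing.ResidueField A),
          GaloisFactorsThroughFiniteLevel ρ ∧ IsSemisimpleTwo ρ ∧
          ∀ p : ℕ, p.Prime → ¬ p ∣ N → p ≠ l → ∀ B : ValuationSubring Qb, B.LiesOverPrime p →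
            (∀ σ ∈ B.inertiaSubgroupIn ℚ, ρ σ = 1) ∧
            ∀ σ : Γℚ, B.IsFrobeniusAt σ p →
              ∃ a' e' : A, (a' : Qb) = a p ∧ (e' : Qb) = e (p : ZMod N) ∧
                ((ρ σ : GL (Fin 2) _) : Matrix (Fin 2) (Fin 2) _).trace =
                  IsLocalRing.residue A a' ∧
                ((ρ σ : GL (Fin 2) _) : Matrix (Fin 2) (Fin 2) _).det =
                  IsLocalRing.residue A e' := by
  exact exists_eigen_data_of_torsionRep (fun M l _ hM hl => hasTorsionRep hM hl) N ε f hf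

end FLTA.DeligneSerre
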