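import Fermat.Agent.DeligneSerre.Eigen.Coeff
import Mathlib.Analysis.Calculus.MeanValue

/-!
# A holomorphic function fixed by `Γ₁(N)` and its conjugate by `diag(p, 1)` vanishes

if it tends to `0` at infinity: the group they generate contains arbitrarily small translations.
-/

set_option autoImplicit false

noncomputable section

open UpperHalfPlane hiding I
open CongruenceSubgroup Matrix.SpecialLinearGroup Filter Topology Function
open scoped MatrixGroups ModularForm Manifold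

namespace FLTA.DeligneSerre

/-- The elements fixing a function in weight `k`. -/
def slashStab (k : ℤ) (h : ℍ → ℂ) : Subgroup (GL (Fin 2) ℝ) where
  carrier := {g | h ∣[k] g = h}
  mul_mem' := fun {a b} (ha : h ∣[k] a = h) (hb : h ∣[k] b = h) => by
    show h ∣[k] (a * b) = h
    rw [SlashAction.slash_mul, ha, hb]
  one_mem' := SlashAction.slash_one k h
  inv_mem' := fun {a} (ha : h ∣[k] a = h) => by
    show h ∣[k] a⁻¹ = h
    conv_lhs => rw [← ha]
    rw [← SlashAction.slash_mul, mul_inv_cancel, SlashAction.slash_one]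

theorem mem_slashStab {k : ℤ} {h : ℍ → ℂ} {g : GL (Fin 2) ℝ} :
    g ∈ slashStab k h ↔ h ∣[k] g = h := Iff.rfl

/-- `Γ(N)` is transitive on primitive vectors in a given class modulo `N`. -/
theorem exists_gamma_mul_eq (N : ℕ) {v₀ v₁ w₀ w₁ : ℤ} (hv : IsCoprime v₀ v₁)
    (hw : IsCoprime w₀ w₁) (h₀ : (w₀ : ZMod N) = v₀) (h₁ : (w₁ : ZMod N) = v₁) :
    ∃ γ ∈ Gamma N, γ.1 0 0 * v₀ + γ.1 0 1 * v₁ = w₀ ∧ γ.1 1 0 * v₀ + γ.1 1 1 * v₁ = w₁ := by
  obtain ⟨a, b, hab⟩ := hv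
  obtain ⟨c, d, hcd⟩ := hw
  let V : SL(2, ℤ) := ⟨!![v₀, -b; v₁, a], by rw [Matrix.det_fin_two_of]; linear_combination hab⟩
  let W : SL(2, ℤ) := ⟨!![w₀, -d; w₁, c], by rw [Matrix.det_fin_two_of]; linear_combination hcd⟩
  let x : ℤ := a * (-d) + b * c
  have hC : V⁻¹ * W * ModularGroup.T ^ (-x) ∈ Gamma N := by
    have hab' : (a : ZMod N) * v₀ + b * v₁ = 1 := by exact_mod_cast congrArg (Int.cast : ℤ → ZMod N) hab
    have hcd' : (c : ZMod N) * w₀ + d * w₁ = 1 := by exact_mod_cast congrArg (Int.cast : ℤ → ZMod N) hcd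
    rw [h₀, h₁] at hcd'
    rw [Gamma_mem]
    simp only [Matrix.SpecialLinearGroup.coe_mul, ModularGroup.coe_T_zpow,
      Matrix.SpecialLinearGroup.coe_inv, Matrix.adjugate_fin_two_of, V, W, x]
    refine ⟨?_, ?_, ?_, ?_⟩
    · simp [Matrix.mul_apply, Fin.sum_univ_two, h₀, h₁]
      linear_combination hab'
    · simp [Matrix.mul_apply, Fin.sum_univ_two, h₀, h₁]
      linear_combination ((a : ZMod N) * d - b * c) * hab'
    · simp [Matrix.mul_apply, Fin.sum_univ_two, h₀, h₁]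
      ring
    · simp [Matrix.mul_apply, Fin.sum_univ_two, h₀, h₁]
      linear_combination hcd'
  refine ⟨W * ModularGroup.T ^ (-x) * V⁻¹, ?_, ?_⟩
  · have := (Gamma_normal N).conj_mem _ hC V
    rwa [show V * (V⁻¹ * W * ModularGroup.T ^ (-x)) * V⁻¹ = W * ModularGroup.T ^ (-x) * V⁻¹ by
      simp [mul_assoc]] at this
  · simp only [Matrix.SpecialLinearGroup.coe_mul, ModularGroup.coe_T_zpow,
      Matrix.SpecialLinearGroup.coe_inv, Matrix.adjugate_fin_two_of, V, W]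
    constructor <;> simp [Matrix.mul_apply, Fin.sum_univ_two]
    · linear_combination w₀ * hab
    · linear_combination w₁ * hab

/-- A translation as a matrix. -/
def translMatrix (t : ℝ) : GL (Fin 2) ℝ :=
  ModularForm.upperTriangularGL 1 t 1 (by norm_num)

theorem slash_translMatrix_apply (k : ℤ) (t : ℝ) (h : ℍ → ℂ) (z : ℍ) :
    (h ∣[k] translMatrix t) z = h (t +ᵥ z) := by
  have hd : ((translMatrix t).det : ℝ) = 1 := by
    rw [Matrix.GeneralLinearGroup.val_det_apply, translMatrix, ModularForm.val_upperTriangularGL,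
      Matrix.det_fin_two_of]
    ring
  have hden : denom (translMatrix t) z = 1 := by
    simp [UpperHalfPlane.denom, translMatrix]
  have hsmul : translMatrix t • z = t +ᵥ z := by
    refine UpperHalfPlane.ext ?_
    rw [UpperHalfPlane.coe_smul_of_det_pos (by rw [hd]; norm_num)]
    simp [UpperHalfPlane.num, UpperHalfPlane.denom, translMatrix, add_comm]
  rw [ModularForm.slash_apply, UpperHalfPlane.σ, if_pos (by rw [hd]; norm_num), hd, hden, hsmul]
  simp

/-- Invariance under arbitrarily small translations and vanishing at infinity force zero. -/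
theorem eq_zero_of_small_translations {h : ℍ → ℂ} (hh : MDiff h) (hz : IsZeroAtImInfty h)
    (t : ℕ → ℝ) (ht0 : ∀ n, t n ≠ 0) (ht : Tendsto t atTop (𝓝 0))
    (hper : ∀ n z, h ((t n : ℝ) +ᵥ z) = h z) : h = 0 := by
  have hd := UpperHalfPlane.mdifferentiable_iff.mp hh
  have hderiv : Set.EqOn (deriv (h ∘ ofComplex)) 0 upperHalfPlaneSet := by
    intro z hzim
    have hD := ((hd z hzim).differentiableAt (isOpen_upperHalfPlaneSet.mem_nhds hzim)).hasDerivAt
    have hlim : Tendsto (fun n => ((t n : ℂ))) atTop (𝓝[≠] (0 : ℂ)) := by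
      refine tendsto_nhdsWithin_iff.mpr ⟨?_, Eventually.of_forall fun n => by simpa using ht0 n⟩
      simpa [Function.comp_def] using (Complex.continuous_ofReal.tendsto (0 : ℝ)).comp ht
    have hs := (hasDerivAt_iff_tendsto_slope_zero.mp hD).comp hlim
    have hzero : ((fun s : ℂ => s⁻¹ • ((h ∘ ofComplex) (z + s) - (h ∘ ofComplex) z)) ∘
        fun n => ((t n : ℂ))) = fun _ => 0 := by
      funext n
      have him : 0 < (z + (t n : ℂ)).im := by simpa using hzim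
      simp only [comp_apply, ofComplex_apply_of_im_pos him, ofComplex_apply_of_im_pos hzim,
        smul_eq_mul, mul_eq_zero, sub_eq_zero]
      right
      refine Eq.trans (congrArg h (UpperHalfPlane.ext ?_)) (hper n ⟨z, hzim⟩)
      simp [add_comm]
    rw [hzero] at hs
    exact tendsto_nhds_unique hs tendsto_const_nhds
  obtain ⟨c, hc⟩ := isOpen_upperHalfPlaneSet.exists_eq_add_of_deriv_eq
    (f := h ∘ ofComplex) (g := fun _ => 0) (convex_halfSpace_im_gt 0).isPreconnected hd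
    (differentiableOn_const 0) (fun z hzim => by simpa using hderiv hzim)
  have hconst : ∀ z : ℍ, h z = c := fun z => by simpa using hc z.im_pos
  have hc0 : c = 0 := by
    have h1 : Tendsto h atImInfty (𝓝 c) := tendsto_const_nhds.congr fun z => (hconst z).symm
    exact tendsto_nhds_unique h1 hz
  funext z
  rw [hconst z, hc0]; rfl

variable {N p : ℕ}

/-- The invariance group contains elements with first column `p⁻ⁱ v`. -/
theorem exists_mem_stab_col (hp : p.Prime) (hpN : ¬ p ∣ N) (S : Subgroup (GL (Fin 2) ℝ))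
    (h1 : ∀ γ ∈ Gamma N, (mapGL ℝ γ : GL (Fin 2) ℝ) ∈ S)
    (h2 : ∀ γ ∈ Gamma N, ModularForm.heckeDiagMatrix p * mapGL ℝ γ *
      (ModularForm.heckeDiagMatrix p)⁻¹ ∈ S) (i : ℕ) :
    ∀ v₀ v₁ : ℤ, IsCoprime v₀ v₁ → (v₀ : ZMod N) = (p : ZMod N) ^ i → (v₁ : ZMod N) = 0 →
      ∃ u ∈ S, u.val.det = 1 ∧ u 0 0 * (p : ℝ) ^ i = v₀ ∧ u 1 0 * (p : ℝ) ^ i = v₁ := by
  have hdetSL : ∀ γ : SL(2, ℤ), (mapGL ℝ γ : GL (Fin 2) ℝ).val.det = 1 := fun γ =>
    ((Matrix.SpecialLinearGroup.map (Int.castRingHom ℝ)) γ).det_coe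
  induction i with
  | zero =>
    intro v₀ v₁ hv hv₀ hv₁
    obtain ⟨γ, hγ, e₀, e₁⟩ := exists_gamma_mul_eq N (isCoprime_one_left (x := (0 : ℤ))) hv
      (by simpa using hv₀) (by simpa using hv₁)
    refine ⟨_, h1 γ hγ, hdetSL γ, ?_, ?_⟩
    · simp only [mul_one, mul_zero, add_zero] at e₀; simp [e₀]
    · simp only [mul_one, mul_zero, add_zero] at e₁; simp [e₁]
  | succ i ih =>
    intro v₀ v₁ hv hv₀ hv₁
    have hpZ : Prime (p : ℤ) := Nat.prime_iff_prime_int.mp hp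
    have hpNZ : ¬ (p : ℤ) ∣ (N : ℤ) := fun h => hpN (Int.natCast_dvd_natCast.mp h)
    have hcopNp : IsCoprime (p : ℤ) (N : ℤ) := hpZ.coprime_iff_not_dvd.mpr hpNZ
    obtain ⟨x, hx, hxp⟩ : ∃ x : ℤ, (x : ZMod N) = (p : ZMod N) ^ i ∧ ¬ (p : ℤ) ∣ x := by
      rcases eq_or_ne i 0 with rfl | hi
      · exact ⟨1, by simp, fun h => hp.one_lt.ne' (Nat.dvd_one.mp (by exact_mod_cast h))⟩
      · refine ⟨(p : ℤ) ^ i + N, by simp, fun h => hpNZ ?_⟩
        exact (dvd_add_right (dvd_pow_self _ hi)).mp h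
    have hxN : IsCoprime x (N : ℤ) := by
      rw [Int.isCoprime_iff_gcd_eq_one]
      have hu : IsUnit (x : ZMod N) := hx ▸
        (((ZMod.isUnit_iff_coprime p N).mpr (hp.coprime_iff_not_dvd.mpr hpN))).pow i
      have := (ZMod.isUnit_iff_coprime _ N).mp
        (show IsUnit ((x.natAbs : ℕ) : ZMod N) by
          rcases Int.natAbs_eq x with h | h
          · rwa [h, Int.cast_natCast] at hu
          · rw [h, Int.cast_neg, Int.cast_natCast] at hu; simpa using hu.neg)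
      simpa [Int.gcd] using this
    have hxp' : IsCoprime x (p : ℤ) := (hpZ.coprime_iff_not_dvd.mpr hxp).symm
    have hxpN : IsCoprime x ((p : ℤ) * N) := hxp'.mul_right hxN
    have hpxN : IsCoprime ((p : ℤ) * x) (N : ℤ) := hcopNp.mul_left hxN
    obtain ⟨u, huS, hud, hu₀, hu₁⟩ := ih x N hxN hx (by simp)
    obtain ⟨γ, hγ, g₀, g₁⟩ := exists_gamma_mul_eq N hxpN hxN rfl (by simp)
    obtain ⟨γ', hγ', g₀', g₁'⟩ := exists_gamma_mul_eq N hpxN hv
      (by rw [hv₀, pow_succ]; push_cast; rw [hx]; ring) (by rw [hv₁]; simp)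
    set D := ModularForm.heckeDiagMatrix p with hD
    refine ⟨mapGL ℝ γ' * (D * mapGL ℝ γ * D⁻¹ * u),
      mul_mem (h1 γ' hγ') (mul_mem (h2 γ hγ) huS), ?_, ?_⟩
    · rw [Units.val_mul, Units.val_mul, Matrix.det_mul, Matrix.det_mul, Units.val_mul, Units.val_mul,
        Matrix.det_mul, Matrix.det_mul, hud, hdetSL, hdetSL, mul_one, one_mul, mul_one,
        ← Matrix.det_mul, Units.mul_inv, Matrix.det_one]
    have hp0 : (p : ℝ) ≠ 0 := by exact_mod_cast hp.ne_zero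
    have hDinv : (D⁻¹ : GL (Fin 2) ℝ).val = !![(p : ℝ)⁻¹, 0; 0, 1] := by
      rw [Matrix.coe_units_inv, hD, ModularForm.val_heckeDiagMatrix hp.ne_zero]
      refine Matrix.inv_eq_left_inv ?_
      ext i j; fin_cases i <;> fin_cases j <;> simp [hp0]
    have r₀ := congrArg (Int.cast : ℤ → ℝ) g₀
    have r₁ := congrArg (Int.cast : ℤ → ℝ) g₁
    have r₀' := congrArg (Int.cast : ℤ → ℝ) g₀'
    have r₁' := congrArg (Int.cast : ℤ → ℝ) g₁'
    push_cast at r₀ r₁ r₀' r₁' hu₁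
    constructor
    · show (mapGL ℝ γ' * (D * mapGL ℝ γ * D⁻¹ * u)).val _ _ * _ = _
      rw [Units.val_mul, Units.val_mul, Units.val_mul, Units.val_mul, hDinv, hD,
        ModularForm.val_heckeDiagMatrix hp.ne_zero]
      simp only [Matrix.mul_apply, Fin.sum_univ_two]
      simp [pow_succ]
      field_simp
      linear_combination (γ.1 0 0 : ℝ) * (γ'.1 0 0 : ℝ) * (p : ℝ) * hu₀ +
        (p : ℝ) ^ 2 * (γ'.1 0 0 : ℝ) * (γ.1 0 1 : ℝ) * hu₁ +
        (γ'.1 0 1 : ℝ) * (γ.1 1 0 : ℝ) * hu₀ + (p : ℝ) * (γ'.1 0 1 : ℝ) * (γ.1 1 1 : ℝ) * hu₁ +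
        (p : ℝ) * (γ'.1 0 0 : ℝ) * r₀ + (γ'.1 0 1 : ℝ) * r₁ + r₀'
    · show (mapGL ℝ γ' * (D * mapGL ℝ γ * D⁻¹ * u)).val _ _ * _ = _
      rw [Units.val_mul, Units.val_mul, Units.val_mul, Units.val_mul, hDinv, hD,
        ModularForm.val_heckeDiagMatrix hp.ne_zero]
      simp only [Matrix.mul_apply, Fin.sum_univ_two]
      simp [pow_succ]
      field_simp
      linear_combination (γ.1 0 0 : ℝ) * (γ'.1 1 0 : ℝ) * (p : ℝ) * hu₀ +
        (p : ℝ) ^ 2 * (γ'.1 1 0 : ℝ) * (γ.1 0 1 : ℝ) * hu₁ +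
        (γ'.1 1 1 : ℝ) * (γ.1 1 0 : ℝ) * hu₀ + (p : ℝ) * (γ'.1 1 1 : ℝ) * (γ.1 1 1 : ℝ) * hu₁ +
        (p : ℝ) * (γ'.1 1 0 : ℝ) * r₀ + (γ'.1 1 1 : ℝ) * r₁ + r₁'

theorem gamma_mem_gamma1 {γ : SL(2, ℤ)} (hγ : γ ∈ Gamma N) : γ ∈ Gamma1 N := by
  rw [Gamma1_mem]
  exact ⟨(Gamma_mem.mp hγ).1, (Gamma_mem.mp hγ).2.2.2, (Gamma_mem.mp hγ).2.2.1⟩

/-- The vanishing statement. -/
theorem eq_zero_of_stab [NeZero N] (hp : p.Prime) (hpN : ¬ p ∣ N) (k : ℤ) {h : ℍ → ℂ}
    (hh : MDiff h) (hz : IsZeroAtImInfty h)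
    (h1 : ∀ γ ∈ Gamma1 N, h ∣[k] (γ : SL(2, ℤ)) = h)
    (h2 : ∀ γ ∈ Gamma1 N, (h ∣[k] ModularForm.heckeDiagMatrix p) ∣[k] (γ : SL(2, ℤ)) =
      h ∣[k] ModularForm.heckeDiagMatrix p) : h = 0 := by
  set S := slashStab k h with hS
  have hS1 : ∀ γ ∈ Gamma N, (mapGL ℝ γ : GL (Fin 2) ℝ) ∈ S := fun γ hγ =>
    h1 γ (gamma_mem_gamma1 hγ)
  have hS2 : ∀ γ ∈ Gamma N, ModularForm.heckeDiagMatrix p * mapGL ℝ γ *
      (ModularForm.heckeDiagMatrix p)⁻¹ ∈ S := by
    intro γ hγ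
    show h ∣[k] (ModularForm.heckeDiagMatrix p * mapGL ℝ γ *
      (ModularForm.heckeDiagMatrix p)⁻¹) = h
    have h2' : (h ∣[k] ModularForm.heckeDiagMatrix p) ∣[k] (mapGL ℝ γ : GL (Fin 2) ℝ) =
        h ∣[k] ModularForm.heckeDiagMatrix p := h2 γ (gamma_mem_gamma1 hγ)
    rw [SlashAction.slash_mul, SlashAction.slash_mul, h2', ← SlashAction.slash_mul,
      mul_inv_cancel, SlashAction.slash_one]
  obtain ⟨m, hm0, hm⟩ : ∃ m : ℕ, m ≠ 0 ∧ (p : ZMod N) ^ m = 1 := by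
    refine ⟨orderOf (primeUnit hp hpN), (orderOf_pos _).ne', ?_⟩
    rw [← coe_primeUnit hp hpN, ← Units.val_pow_eq_pow_val, pow_orderOf_eq_one, Units.val_one]
  obtain ⟨u, huS, hud, hu₀, hu₁⟩ := exists_mem_stab_col hp hpN S hS1 hS2 m 1 0
    isCoprime_one_left (by simp [hm]) (by simp)
  have hp0 : (p : ℝ) ≠ 0 := by exact_mod_cast hp.ne_zero
  have hpm : (p : ℝ) ^ m ≠ 0 := pow_ne_zero _ hp0
  have u10 : u 1 0 = 0 := by simpa [hpm] using hu₁
  have u00 : u 0 0 = ((p : ℝ) ^ m)⁻¹ := eq_inv_of_mul_eq_one_left (by simpa using hu₀)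
  have u11 : u 1 1 = (p : ℝ) ^ m := by
    rw [Matrix.det_fin_two] at hud
    have h' := hud
    rw [u10, u00, mul_zero, sub_zero, inv_mul_eq_div, div_eq_one_iff_eq hpm] at h'
    exact h'
  have hT : translMatrix 1 ∈ S := by
    have hmem := h1 ModularGroup.T (by simpa using T_zpow_mem_gamma1 (N := N) 1)
    have e : (mapGL ℝ ModularGroup.T : GL (Fin 2) ℝ) = translMatrix 1 := by
      ext i j; fin_cases i <;> fin_cases j <;> simp [translMatrix, ModularGroup.T]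
    rw [← e]; exact hmem
  have key : ∀ n : ℕ, translMatrix ((((p : ℝ) ^ m) ^ 2)⁻¹ ^ n) ∈ S := by
    intro n
    induction n with
    | zero => simpa using hT
    | succ n ih =>
      have e : translMatrix ((((p : ℝ) ^ m) ^ 2)⁻¹ ^ (n + 1)) =
          u * translMatrix ((((p : ℝ) ^ m) ^ 2)⁻¹ ^ n) * u⁻¹ := by
        rw [eq_mul_inv_iff_mul_eq]
        ext i j
        fin_cases i <;> fin_cases j <;>
          simp [translMatrix, Matrix.mul_apply, Fin.sum_univ_two, u10, u00, u11]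
        field_simp
        ring
      rw [e]
      exact mul_mem (mul_mem huS ih) (inv_mem huS)
  have hlt : (((p : ℝ) ^ m) ^ 2)⁻¹ < 1 := by
    have h1p : (1 : ℝ) < p := by exact_mod_cast hp.one_lt
    exact inv_lt_one_of_one_lt₀ (one_lt_pow₀ (one_lt_pow₀ h1p hm0) two_ne_zero)
  refine eq_zero_of_small_translations hh hz (fun n => (((p : ℝ) ^ m) ^ 2)⁻¹ ^ n)
    (fun n => pow_ne_zero _ (inv_ne_zero (pow_ne_zero _ hpm)))
    (tendsto_pow_atTop_nhds_zero_of_lt_one (by positivity) hlt) fun n z => ?_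
  have := congrFun (mem_slashStab.mp (key n)) z
  rwa [slash_translMatrix_apply] at this

end FLTA.DeligneSerre
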